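import Fermat.Agent.Pic.Glue.Rig

/-!
# Pushforward of rigidifications along open immersions, and gluing of rigidifications

A rigidification on an open subscheme pushes forward, and rigidifications agreeing on overlaps
glue.
-/

set_option autoImplicit false

noncomputable section

universe u

open CategoryTheory AlgebraicGeometry Opposite TopologicalSpace

namespace FermatAgent.Pic.Glue

variable {X T X' T' : Scheme.{u}} {M N : X.Modules}

/-- The pullback of a pushforward along an open immersion. -/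
def pullbackPushforwardIso (j : X' ⟶ X) [IsOpenImmersion j] (M' : X'.Modules) :
    (Scheme.Modules.pullback j).obj ((Scheme.Modules.pushforward j).obj M') ≅ M' :=
  ((Scheme.Modules.restrictFunctorIsoPullback j).app _).symm ≪≫
    asIso ((Scheme.Modules.restrictAdjunction j).counit.app M')

theorem isUnit_of_isUnit_app (j : X' ⟶ X) [IsOpenImmersion j] {V : X.Opens}
    (h : V ≤ j.opensRange) {r : Γ(X, V)} (hr : IsUnit (j.app V r)) : IsUnit r := by
  have := j.isIso_app V h
  have h2 := hr.map (inv (j.app V)).hom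
  simpa using h2

/-- A function below the range of an open immersion is determined by its inverse image. -/
theorem app_injective (j : X' ⟶ X) [IsOpenImmersion j] {V : X.Opens} (h : V ≤ j.opensRange) :
    Function.Injective (j.app V) := by
  have := j.isIso_app V h
  exact (ConcreteCategory.bijective_of_isIso (j.app V)).1

theorem app_surjective (j : X' ⟶ X) [IsOpenImmersion j] {V : X.Opens} (h : V ≤ j.opensRange) :
    Function.Surjective (j.app V) := by
  have := j.isIso_app V h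
  exact (ConcreteCategory.bijective_of_isIso (j.app V)).2

theorem isBasisOn_pushforward (j : X' ⟶ X) [IsOpenImmersion j] {M' : X'.Modules} {V : X.Opens}
    (h : V ≤ j.opensRange) {g : Γ(M', j ⁻¹ᵁ V)} (hg : IsBasisOn M' g) :
    IsBasisOn ((Scheme.Modules.pushforward j).obj M') (W := V) g := by
  intro V' hV'
  have hb := (hg (j ⁻¹ᵁ V') (j.preimage_mono hV')).comp
    ⟨app_injective j (hV'.trans h), app_surjective j (hV'.trans h)⟩
  exact hb

/-- The pushforward of an invertible module along an open immersion is locally free on the range. -/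
theorem locFreeOn_pushforward (j : X' ⟶ X) [IsOpenImmersion j] {M' : X'.Modules}
    (hM : Scheme.Modules.IsInvertible M') :
    LocFreeOn ((Scheme.Modules.pushforward j).obj M') j.opensRange := by
  rintro _ ⟨x', rfl⟩
  obtain ⟨V', g, hx', hg⟩ := exists_isBasisOn hM x'
  refine ⟨j ''ᵁ V', mres M' (j.preimage_image_eq V').le g, j.image_le_opensRange V',
    ⟨x', hx', rfl⟩, isBasisOn_pushforward j (j.image_le_opensRange V') (hg.restrict _)⟩

/-- A locally free module is invertible. -/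
theorem isInvertible_of_locFreeOn (h : LocFreeOn M ⊤) : Scheme.Modules.IsInvertible M := by
  refine ⟨fun x => ?_⟩
  obtain ⟨V, g, -, hxV, hg⟩ := h x trivial
  obtain ⟨e, -⟩ := hg.exists_isoOn (isBasisOn_unit V)
  exact ⟨V, hxV, ⟨IsoOn.toPullbackIso V.ι e V.opensRange_ι.le ≪≫
    Scheme.Modules.pullbackUnitIso V.ι⟩⟩

namespace RigOn

/-- A rigidification on an open subscheme pushes forward. -/
theorem nonempty_descend {f : T ⟶ X} {f' : T' ⟶ X'} (i : T' ⟶ T) (j : X' ⟶ X)
    [IsOpenImmersion i] [IsOpenImmersion j] (hsq : f' ≫ j = i ≫ f) {M' : X'.Modules}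
    (a : RigOn f' ⊤ M') {W : X.Opens} (hj : W ≤ j.opensRange) (hi : f ⁻¹ᵁ W ≤ i.opensRange) :
    Nonempty (RigOn f W ((Scheme.Modules.pushforward j).obj M')) := by
  have heq : ∀ V : X.Opens, i ⁻¹ᵁ f ⁻¹ᵁ V = f' ⁻¹ᵁ j ⁻¹ᵁ V := fun V => by
    rw [← Scheme.Hom.comp_preimage, ← hsq, Scheme.Hom.comp_preimage]
  have happ : ∀ (V : X.Opens) (r : Γ(X, V)),
      i.app (f ⁻¹ᵁ V) (f.app V r) = rres (heq V).le (f'.app (j ⁻¹ᵁ V) (j.app V r)) := fun V r =>
    ConcreteCategory.congr_hom (Scheme.Hom.congr_app hsq.symm V) r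
  have hi' : ∀ V, V ≤ W → f ⁻¹ᵁ V ≤ i.opensRange := fun V h => (f.preimage_mono h).trans hi
  have hex : ∀ (V : X.Opens) (h : V ≤ W) (s : Γ(M', j ⁻¹ᵁ V)), ∃ c : Γ(T, f ⁻¹ᵁ V),
      i.app (f ⁻¹ᵁ V) c = rres (heq V).le (a.ev (j ⁻¹ᵁ V) le_top s) := fun V h s =>
    app_surjective i (hi' V h) _
  choose ev hev using hex
  refine ⟨⟨fun V h => AddMonoidHom.mk' (fun s : Γ(M', j ⁻¹ᵁ V) => ev V h s)
    fun (s t : Γ(M', j ⁻¹ᵁ V)) => app_injective i (hi' V h) ?_, fun V h r s => ?_,
    fun V V' h h' s => ?_, fun x hx => ?_⟩⟩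
  · show i.app _ (ev V h (HAdd.hAdd (α := Γ(M', j ⁻¹ᵁ V)) s t)) =
      i.app _ (ev V h s + ev V h t)
    rw [map_add, hev, hev, hev, map_add, map_add]
  · refine app_injective i (hi' V h) ?_
    show i.app _ (ev V h (HSMul.hSMul (α := Γ(X', j ⁻¹ᵁ V)) (β := Γ(M', j ⁻¹ᵁ V))
        (j.app V r) s)) =
      i.app _ (f.app V r * ev V h s)
    rw [hev, a.smul, map_mul, map_mul, happ, hev]
  · refine app_injective i (hi' V' (h'.trans h)) ?_
    show i.app _ (rres _ (ev V h (s : Γ(M', j ⁻¹ᵁ V)))) =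
      i.app _ (ev V' (h'.trans h) (mres M' (j.preimage_mono h') (s : Γ(M', j ⁻¹ᵁ V))))
    rw [← rres_app i (f.preimage_mono h'), hev, hev, ← a.nat _ _ le_top (j.preimage_mono h'),
      rres_rres, rres_rres]
  · obtain ⟨x', rfl⟩ := hi (show x ∈ f ⁻¹ᵁ W from hx)
    obtain ⟨V', _hV', g, hxV', hg, hu⟩ := a.gen x' trivial
    have hVle : j ⁻¹ᵁ (j ''ᵁ V' ⊓ W) ≤ V' :=
      (j.preimage_mono inf_le_left).trans (j.preimage_image_eq V').le
    refine ⟨j ''ᵁ V' ⊓ W, inf_le_right, mres M' hVle g, ⟨?_, hx⟩,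
      isBasisOn_pushforward j (inf_le_right.trans hj) (hg.restrict _), ?_⟩
    · refine ⟨f' x', hxV', ?_⟩
      show j (f' x') = f (i x')
      rw [← Scheme.Hom.comp_apply, ← Scheme.Hom.comp_apply, hsq]
    · refine isUnit_of_isUnit_app i (hi' _ inf_le_right) ?_
      show IsUnit (i.app _ (ev _ inf_le_right (mres M' hVle g)))
      rw [hev, ← a.nat _ _ le_top hVle]
      exact (hu.map _).map _

/-- Rigidifications glue. -/
theorem exists_glue {f : T ⟶ X} {ι : Type u} (U : ι → X.Opens) (hc : ⊤ ≤ iSup U)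
    (a : ∀ i, RigOn f (U i) M)
    (h : ∀ i j V (hi : V ≤ U i) (hj : V ≤ U j) s, (a i).ev V hi s = (a j).ev V hj s) :
    ∃ b : RigOn f ⊤ M, ∀ i V (hi : V ≤ U i) s, b.ev V le_top s = (a i).ev V hi s := by
  have hcov : ∀ V : X.Opens, f ⁻¹ᵁ V ≤ iSup fun i => f ⁻¹ᵁ (V ⊓ U i) := fun V x hx => by
    obtain ⟨i, hi⟩ := Opens.mem_iSup.1 (hc (trivial : f x ∈ (⊤ : X.Opens)))
    exact Opens.mem_iSup.2 ⟨i, hx, hi⟩
  have ex : ∀ (V : X.Opens) (s : Γ(M, V)), ∃ c : Γ(T, f ⁻¹ᵁ V), ∀ i,
      rres (f.preimage_mono inf_le_left) c =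
        (a i).ev (V ⊓ U i) inf_le_right (mres M inf_le_left s) := fun V s => by
    refine rres_glue (fun i => f ⁻¹ᵁ (V ⊓ U i)) (fun i => f.preimage_mono inf_le_left) (hcov V) _
      fun i j => ?_
    show rres (f.preimage_mono (inf_le_left : (V ⊓ U i) ⊓ (V ⊓ U j) ≤ V ⊓ U i)) _ =
      rres (f.preimage_mono inf_le_right) _
    rw [(a i).nat _ _ inf_le_right inf_le_left, (a j).nat _ _ inf_le_right inf_le_right, mres_mres,
      mres_mres]
    exact h i j _ _ _ _
  choose ev hev using ex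
  have uniq : ∀ V (s : Γ(M, V)) (c : Γ(T, f ⁻¹ᵁ V)), (∀ i, rres (f.preimage_mono inf_le_left) c =
      (a i).ev (V ⊓ U i) inf_le_right (mres M inf_le_left s)) → ev V s = c := fun V s c hc' =>
    rres_ext (fun i => f ⁻¹ᵁ (V ⊓ U i)) (fun i => f.preimage_mono inf_le_left) (hcov V) _ _
      fun i => (hev V s i).trans (hc' i).symm
  have agree : ∀ i V (hi : V ≤ U i) s, ev V s = (a i).ev V hi s := fun i V hi s =>
    uniq V s _ fun j => by
      rw [RigOn.nat]
      exact h i j _ _ _ _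
  refine ⟨⟨fun V _ => AddMonoidHom.mk' (ev V) fun s t => uniq V _ _ fun i => by
      simp only [map_add, hev], fun V _ r s => uniq V _ _ fun i => by
      rw [AddMonoidHom.mk'_apply, mres_smul, (a i).smul, map_mul, hev, rres_app],
    fun V V' _ h' s => (uniq V' _ _ fun i => ?_).symm, fun x _ => ?_⟩, agree⟩
  · rw [AddMonoidHom.mk'_apply, rres_rres, ← rres_rres (f.preimage_mono (inf_le_left : V ⊓ U i ≤ V))
      (f.preimage_mono (inf_le_inf_right (U i) h')) (ev V s), hev,
      (a i).nat _ _ inf_le_right (inf_le_inf_right (U i) h'), mres_mres, mres_mres]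
  · obtain ⟨i, hi⟩ := Opens.mem_iSup.1 (hc (trivial : f x ∈ (⊤ : X.Opens)))
    obtain ⟨V, hV, g, hxV, hg, hu⟩ := (a i).gen x hi
    exact ⟨V, le_top, g, hxV, hg, by rw [AddMonoidHom.mk'_apply, agree i V hV]; exact hu⟩

end RigOn

end FermatAgent.Pic.Glue
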