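import Fermat.Agent.Pic.Glue.HomOn

/-!
# Gluing of modules along a cocycle

The glued module has as sections over `V` the compatible families of sections over the `V ⊓ U i`.
-/

set_option autoImplicit false

noncomputable section

universe u

open CategoryTheory AlgebraicGeometry Opposite TopologicalSpace

namespace FermatAgent.Pic.Glue

variable {X : Scheme.{u}}

/-- Modules on the pieces of a cover with a cocycle of morphisms on overlaps. -/
structure GlueData (X : Scheme.{u}) : Type (u + 1) where
  /-- the indices -/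
  ι : Type u
  /-- the pieces -/
  U : ι → X.Opens
  /-- the modules -/
  N : ι → X.Modules
  /-- the transition maps -/
  φ : ∀ i j, HomOn (U i ⊓ U j) (N i) (N j)
  id_apply : ∀ i V (h : V ≤ U i ⊓ U i) s, (φ i i).app V h s = s
  comp_apply : ∀ i j l V (hij : V ≤ U i ⊓ U j) (hjl : V ≤ U j ⊓ U l) (hil : V ≤ U i ⊓ U l) s,
    (φ j l).app V hjl ((φ i j).app V hij s) = (φ i l).app V hil s

namespace GlueData

variable (D : GlueData X)

/-- The sections of one piece over an open. -/
def Comp (V : X.Opens) (i : D.ι) : Type u := Γ(D.N i, V ⊓ D.U i)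

instance (V : X.Opens) (i : D.ι) : AddCommGroup (D.Comp V i) :=
  inferInstanceAs (AddCommGroup Γ(D.N i, V ⊓ D.U i))

instance (V : X.Opens) (i : D.ι) : Module Γ(X, V) (D.Comp V i) :=
  Module.compHom Γ(D.N i, V ⊓ D.U i) (rres (inf_le_left : V ⊓ D.U i ≤ V))

/-- A component as a section. -/
def out {V : X.Opens} {i : D.ι} : D.Comp V i →+ Γ(D.N i, V ⊓ D.U i) where
  toFun s := s
  map_zero' := rfl
  map_add' _ _ := rfl

theorem out_smul {V : X.Opens} {i : D.ι} (r : Γ(X, V)) (s : D.Comp V i) :
    D.out (r • s) = rres (inf_le_left : V ⊓ D.U i ≤ V) r • D.out s := rfl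

/-- The restriction of a component to the part of an overlap. -/
theorem le_left (V : X.Opens) (i j : D.ι) : V ⊓ (D.U i ⊓ D.U j) ≤ V ⊓ D.U i :=
  inf_le_inf_left V inf_le_left

theorem le_right (V : X.Opens) (i j : D.ι) : V ⊓ (D.U i ⊓ D.U j) ≤ V ⊓ D.U j :=
  inf_le_inf_left V inf_le_right

/-- The compatibility of two components. -/
def Agree {V : X.Opens} (s : ∀ i, D.Comp V i) (i j : D.ι) : Prop :=
  (D.φ i j).app _ inf_le_right (mres (D.N i) (D.le_left V i j) (D.out (s i))) =
    mres (D.N j) (D.le_right V i j) (D.out (s j))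

/-- The sections of the glued module. -/
def sections (V : X.Opens) : Submodule Γ(X, V) (∀ i, D.Comp V i) where
  carrier := {s | ∀ i j, D.Agree s i j}
  zero_mem' i j := by
    show (D.φ i j).app _ _ (mres (D.N i) _ (D.out 0)) = mres (D.N j) _ (D.out 0)
    rw [map_zero, map_zero, map_zero, map_zero, map_zero]
  add_mem' {s t} hs ht i j := by
    show (D.φ i j).app _ _ (mres (D.N i) _ (D.out (s i + t i))) =
      mres (D.N j) _ (D.out (s j + t j))
    rw [map_add, map_add, map_add, map_add, map_add, hs i j, ht i j]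
  smul_mem' r s hs i j := by
    show (D.φ i j).app _ _ (mres (D.N i) _ (D.out (r • s i))) =
      mres (D.N j) _ (D.out (r • s j))
    rw [out_smul, out_smul, mres_smul, mres_smul, HomOn.smul, hs i j, rres_rres, rres_rres]

/-- Restriction of sections. -/
def res {V V' : X.Opens} (h : V' ≤ V) : D.sections V →+ D.sections V' where
  toFun s := ⟨fun i => mres (D.N i) (inf_le_inf_right _ h) (s.1 i), fun i j => by
    show (D.φ i j).app _ _ (mres _ _ (mres (D.N i) _ (s.1 i))) = mres _ _ (mres (D.N j) _ (s.1 j))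
    have e := congrArg (mres (D.N j) (inf_le_inf_right _ h :
      V' ⊓ (D.U i ⊓ D.U j) ≤ V ⊓ (D.U i ⊓ D.U j))) (s.2 i j)
    rw [HomOn.nat, mres_mres, mres_mres] at e
    rw [mres_mres, mres_mres]
    exact e⟩
  map_zero' := Subtype.ext (funext fun i => map_zero (mres (D.N i) (inf_le_inf_right _ h)))
  map_add' s t := Subtype.ext (funext fun i =>
    map_add (mres (D.N i) (inf_le_inf_right _ h)) (s.1 i) (t.1 i))

theorem res_apply {V V' : X.Opens} (h : V' ≤ V) (s : D.sections V) (i : D.ι) :
    (D.res h s).1 i = mres (D.N i) (inf_le_inf_right _ h) (s.1 i) := rfl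

/-- The presheaf of abelian groups. -/
def presheafAb : TopCat.Presheaf Ab.{u} X where
  obj V := AddCommGrpCat.of (D.sections V.unop)
  map f := AddCommGrpCat.ofHom (D.res (leOfHom f.unop))
  map_id V := by
    refine AddCommGrpCat.ext fun s => ?_
    exact Subtype.ext (funext fun i => mres_self (M := D.N i) le_rfl ((s : D.sections V.unop).1 i))
  map_comp {V V' V''} f g := by
    refine AddCommGrpCat.ext fun s => ?_
    exact Subtype.ext (funext fun i => (mres_mres (M := D.N i)
      (inf_le_inf_right _ (leOfHom f.unop)) (inf_le_inf_right _ (leOfHom g.unop))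
      ((s : D.sections V.unop).1 i)).symm)

instance (V : (Opens X)ᵒᵖ) : Module (X.ringCatSheaf.obj.obj V) (D.presheafAb.obj V) :=
  inferInstanceAs (Module Γ(X, V.unop) (D.sections V.unop))

/-- The presheaf of modules. -/
def presheafMod : PresheafOfModules X.ringCatSheaf.obj :=
  PresheafOfModules.ofPresheaf (D.presheafAb) fun {V V'} f r s =>
    Subtype.ext (funext fun i => by
      show mres (D.N i) (inf_le_inf_right _ (leOfHom f.unop))
          (D.out (HSMul.hSMul (α := Γ(X, V.unop)) (β := D.Comp V.unop i) r (s.1 i))) =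
        rres (inf_le_left : V'.unop ⊓ D.U i ≤ V'.unop) (rres (leOfHom f.unop) r) •
          mres (D.N i) (inf_le_inf_right _ (leOfHom f.unop)) (D.out (s.1 i))
      rw [out_smul, mres_smul, rres_rres, rres_rres])

/-- The compatible families of sections form a sheaf. -/
theorem isSheaf_presheafAb : D.presheafAb.IsSheaf := by
  refine (TopCat.Presheaf.isSheaf_iff_isSheafUniqueGluing _).2 ?_
  intro κ W sf hsf
  have hcov : ∀ i, iSup W ⊓ D.U i ≤ iSup fun a => W a ⊓ D.U i := fun i => (iSup_inf_eq _ _).le
  have hle : ∀ a i, W a ⊓ D.U i ≤ iSup W ⊓ D.U i := fun a i =>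
    inf_le_inf_right _ (le_iSup W a)
  have hglue : ∀ i, ∃ t : Γ(D.N i, iSup W ⊓ D.U i), ∀ a,
      mres (D.N i) (hle a i) t = (sf a).1 i := fun i => by
    refine mres_glue (fun a => W a ⊓ D.U i) (fun a => hle a i) (hcov i) _ fun a b => ?_
    have e : (D.res (inf_le_left : W a ⊓ W b ≤ W a) (sf a)).1 i =
        (D.res (inf_le_right : W a ⊓ W b ≤ W b) (sf b)).1 i :=
      congrFun (congrArg Subtype.val (hsf a b)) i
    have e2 := congrArg (mres (D.N i) (le_inf (le_inf (inf_le_left.trans inf_le_left)
      (inf_le_right.trans inf_le_left)) (inf_le_left.trans inf_le_right) :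
        (W a ⊓ D.U i) ⊓ (W b ⊓ D.U i) ≤ W a ⊓ W b ⊓ D.U i)) e
    rw [res_apply, res_apply] at e2
    exact ((mres_mres _ _ _).symm.trans e2).trans (mres_mres _ _ _)
  choose t ht using hglue
  refine ⟨⟨t, fun i j => ?_⟩, fun a => Subtype.ext (funext fun i => ht i a), fun s hs => ?_⟩
  · refine mres_ext (fun a => W a ⊓ (D.U i ⊓ D.U j))
      (fun a => inf_le_inf_right _ (le_iSup W a)) ((iSup_inf_eq _ _).le) _ _ fun a => ?_
    show mres (D.N j) _ ((D.φ i j).app _ _ (mres (D.N i) _ (t i))) =
      mres (D.N j) _ (mres (D.N j) _ (t j))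
    rw [HomOn.nat, mres_mres, mres_mres,
      ← mres_mres (hle a i) (D.le_left (W a) i j) (t i),
      ← mres_mres (hle a j) (D.le_right (W a) i j) (t j), ht, ht]
    exact (sf a).2 i j
  · refine Subtype.ext (funext fun i => ?_)
    refine mres_ext (fun a => W a ⊓ D.U i) (fun a => hle a i) (hcov i) _ _ fun a => ?_
    exact (congrFun (congrArg Subtype.val (hs a)) i).trans (ht i a).symm

/-- The glued module. -/
def glued : X.Modules where
  val := D.presheafMod
  isSheaf := D.isSheaf_presheafAb

/-- The glued module over a piece. -/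
def gluedHom (i : D.ι) : HomOn (D.U i) D.glued (D.N i) where
  app V h := (mres (D.N i) (le_inf le_rfl h)).comp
    (AddMonoidHom.mk' (fun s : D.sections V => (s.1 i : Γ(D.N i, V ⊓ D.U i))) fun _ _ => rfl)
  smul V h r s := by
    show mres (D.N i) _
      (D.out (HSMul.hSMul (α := Γ(X, V)) (β := D.Comp V i) r ((s : D.sections V).1 i))) = _
    rw [out_smul, mres_smul, rres_rres, rres_self]
    rfl
  nat V V' h h' s := by
    show mres _ _ (mres (D.N i) _ ((s : D.sections V).1 i)) =
      mres (D.N i) _ (mres (D.N i) _ ((s : D.sections V).1 i))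
    rw [mres_mres, mres_mres]

/-- The inverse over a piece. -/
def gluedInv (i : D.ι) : HomOn (D.U i) (D.N i) D.glued where
  app V h := AddMonoidHom.mk'
    (fun a => (⟨fun j => ((D.φ i j).app (V ⊓ D.U j) (inf_le_inf_right _ h)
      (mres (D.N i) inf_le_left a) : Γ(D.N j, V ⊓ D.U j)), fun j l => by
        show (D.φ j l).app _ _ (mres (D.N j) _ ((D.φ i j).app _ _ _)) =
          mres (D.N l) _ ((D.φ i l).app _ _ _)
        rw [HomOn.nat, HomOn.nat, mres_mres, mres_mres]
        exact D.comp_apply i j l _ _ _ _ _⟩ : D.sections V))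
    fun a b => Subtype.ext (funext fun j => by
      show (D.φ i j).app _ _ (mres (D.N i) _ (a + b)) = _
      rw [map_add, map_add]
      rfl)
  smul V h r a := Subtype.ext (funext fun j => by
    show (D.φ i j).app _ _ (mres (D.N i) _ (r • a)) =
      rres (inf_le_left : V ⊓ D.U j ≤ V) r •
        (D.φ i j).app (V ⊓ D.U j) (inf_le_inf_right _ h) (mres (D.N i) inf_le_left a)
    rw [mres_smul, HomOn.smul])
  nat V V' h h' a := Subtype.ext (funext fun j => by
    show mres (D.N j) _ ((D.φ i j).app _ _ _) = (D.φ i j).app _ _ (mres _ _ (mres (D.N i) _ a))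
    rw [HomOn.nat, mres_mres, mres_mres])

theorem agree_of_le {V : X.Opens} (s : D.sections V) (i j : D.ι) {V' : X.Opens}
    (hi : V' ≤ V ⊓ D.U i) (hj : V' ≤ V ⊓ D.U j) :
    (D.φ i j).app V' (le_inf (hi.trans inf_le_right) (hj.trans inf_le_right))
      (mres (D.N i) hi (s.1 i)) = mres (D.N j) hj (s.1 j) := by
  have h : V' ≤ V ⊓ (D.U i ⊓ D.U j) :=
    le_inf (hi.trans inf_le_left) (le_inf (hi.trans inf_le_right) (hj.trans inf_le_right))
  have e := congrArg (mres (D.N j) h) (s.2 i j)
  rw [HomOn.nat, mres_mres, mres_mres] at e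
  exact e

/-- The glued module is the given one on each piece. -/
def gluedIso (i : D.ι) : IsoOn (D.U i) D.glued (D.N i) where
  hom := D.gluedHom i
  inv := D.gluedInv i
  hom_inv V h s := Subtype.ext (funext fun j => by
    show (D.φ i j).app _ _ (mres (D.N i) _ (mres (D.N i) _ ((s : D.sections V).1 i))) = _
    rw [mres_mres]
    exact (D.agree_of_le s i j (le_inf inf_le_left (inf_le_left.trans h))
      (le_refl (V ⊓ D.U j))).trans (mres_self _ _))
  inv_hom V h a := by
    show mres (D.N i) _ ((D.φ i i).app _ _ (mres (D.N i) _ a)) = a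
    rw [D.id_apply, mres_mres, mres_self]

/-- The isomorphisms of the glued module with the pieces are compatible with the cocycle. -/
theorem φ_gluedIso (i j : D.ι) (V : X.Opens) (hi : V ≤ D.U i) (hj : V ≤ D.U j)
    (s : Γ(D.glued, V)) :
    (D.φ i j).app V (le_inf hi hj) ((D.gluedIso i).hom.app V hi s) =
      (D.gluedIso j).hom.app V hj s :=
  D.agree_of_le s i j (le_inf le_rfl hi) (le_inf le_rfl hj)

end GlueData

end FermatAgent.Pic.Glue
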