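import Mathlib.AlgebraicGeometry.Modules.Sheaf
import Fermat.Prelude.Def_AlgebraicGeometry_RelativePicardFunctor

/-!
# Morphisms of modules over an open subset, on the sections of the ambient scheme

A morphism over an open `W` acts on the sections over the opens contained in `W`.  These restrict
and compose on the nose, and glue.
-/

set_option autoImplicit false

noncomputable section

universe u

open CategoryTheory AlgebraicGeometry Opposite TopologicalSpace

namespace FermatAgent.Pic.Glue

variable {X : Scheme.{u}}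

/-- Restriction of a section of a module. -/
abbrev mres (M : X.Modules) {V V' : X.Opens} (h : V' ≤ V) : Γ(M, V) →+ Γ(M, V') :=
  (M.presheaf.map (homOfLE h).op).hom

/-- Restriction of a function. -/
abbrev rres {V V' : X.Opens} (h : V' ≤ V) : Γ(X, V) →+* Γ(X, V') :=
  (X.presheaf.map (homOfLE h).op).hom

variable {M N K : X.Modules}

/-- Restriction of sections is semilinear. -/
theorem mres_smul {V V' : X.Opens} (h : V' ≤ V) (r : Γ(X, V)) (s : Γ(M, V)) :
    mres M h (r • s) = rres h r • mres M h s :=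
  Scheme.Modules.map_smul M _ r s

/-- Restrictions of sections compose. -/
@[simp]
theorem mres_mres {V V' V'' : X.Opens} (h : V' ≤ V) (h' : V'' ≤ V') (s : Γ(M, V)) :
    mres M h' (mres M h s) = mres M (h'.trans h) s := by
  show M.presheaf.map _ (M.presheaf.map _ s) = _
  rw [← ConcreteCategory.comp_apply, ← Functor.map_comp]
  rfl

/-- Restricting a section to the same open does nothing. -/
@[simp]
theorem mres_self {V : X.Opens} (h : V ≤ V) (s : Γ(M, V)) : mres M h s = s := by
  show M.presheaf.map _ s = s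
  rw [show (homOfLE h).op = 𝟙 (op V) from rfl, CategoryTheory.Functor.map_id]
  rfl

/-- Restrictions of functions compose. -/
@[simp]
theorem rres_rres {V V' V'' : X.Opens} (h : V' ≤ V) (h' : V'' ≤ V') (r : Γ(X, V)) :
    rres h' (rres h r) = rres (h'.trans h) r := by
  show X.presheaf.map _ (X.presheaf.map _ r) = _
  rw [← ConcreteCategory.comp_apply, ← Functor.map_comp]
  rfl

/-- Restricting a function to the same open does nothing. -/
@[simp]
theorem rres_self {V : X.Opens} (h : V ≤ V) (r : Γ(X, V)) : rres h r = r := by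
  show X.presheaf.map _ r = r
  rw [show (homOfLE h).op = 𝟙 (op V) from rfl, CategoryTheory.Functor.map_id]
  rfl

theorem mres_injective_of_le {V V' : X.Opens} (h : V' ≤ V) (h' : V ≤ V') :
    Function.Injective (mres M h) := fun a b e => by
  simpa using congrArg (mres M h') e

/-- Restriction between equal opens is bijective. -/
theorem mres_bijective_of_le {V V' : X.Opens} (h : V' ≤ V) (h' : V ≤ V') :
    Function.Bijective (mres M h) :=
  ⟨mres_injective_of_le h h', fun t => ⟨mres M h' t, (mres_mres _ _ _).trans (mres_self _ _)⟩⟩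

/-- A section is determined locally. -/
theorem mres_ext {ι : Type u} {V : X.Opens} (U : ι → X.Opens) (hU : ∀ i, U i ≤ V)
    (hc : V ≤ iSup U) (s t : Γ(M, V)) (h : ∀ i, mres M (hU i) s = mres M (hU i) t) : s = t :=
  TopCat.Sheaf.eq_of_locally_eq' (F := ⟨M.presheaf, M.isSheaf⟩) U V (fun i => homOfLE (hU i)) hc
    s t h

/-- Compatible sections glue. -/
theorem mres_glue {ι : Type u} {V : X.Opens} (U : ι → X.Opens) (hU : ∀ i, U i ≤ V)
    (hc : V ≤ iSup U) (s : ∀ i, Γ(M, U i))
    (h : ∀ i j, mres M inf_le_left (s i) = mres M (inf_le_right : U i ⊓ U j ≤ U j) (s j)) :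
    ∃ t : Γ(M, V), ∀ i, mres M (hU i) t = s i :=
  (TopCat.Sheaf.existsUnique_gluing' (F := ⟨M.presheaf, M.isSheaf⟩) U V (fun i => homOfLE (hU i))
    hc s h).exists

/-- A function is determined locally. -/
theorem rres_ext {ι : Type u} {V : X.Opens} (U : ι → X.Opens) (hU : ∀ i, U i ≤ V)
    (hc : V ≤ iSup U) (s t : Γ(X, V)) (h : ∀ i, rres (hU i) s = rres (hU i) t) : s = t :=
  TopCat.Sheaf.eq_of_locally_eq' (F := X.sheaf) U V (fun i => homOfLE (hU i)) hc s t h

/-- Compatible functions glue. -/
theorem rres_glue {ι : Type u} {V : X.Opens} (U : ι → X.Opens) (hU : ∀ i, U i ≤ V)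
    (hc : V ≤ iSup U) (s : ∀ i, Γ(X, U i))
    (h : ∀ i j, rres inf_le_left (s i) = rres (inf_le_right : U i ⊓ U j ≤ U j) (s j)) :
    ∃ t : Γ(X, V), ∀ i, rres (hU i) t = s i :=
  (TopCat.Sheaf.existsUnique_gluing' (F := X.sheaf) U V (fun i => homOfLE (hU i)) hc s h).exists

/-- A morphism of modules over an open subset. -/
@[ext]
structure HomOn (W : X.Opens) (M N : X.Modules) : Type u where
  /-- the maps on sections -/
  app : ∀ V : X.Opens, V ≤ W → (Γ(M, V) →+ Γ(N, V))
  smul : ∀ (V : X.Opens) (h : V ≤ W) (r : Γ(X, V)) (s : Γ(M, V)),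
    app V h (r • s) = r • app V h s
  nat : ∀ (V V' : X.Opens) (h : V ≤ W) (h' : V' ≤ V) (s : Γ(M, V)),
    mres N h' (app V h s) = app V' (h'.trans h) (mres M h' s)

namespace HomOn

variable {W W' : X.Opens}

/-- Morphisms over an open are equal if they agree on all sections. -/
theorem ext' {φ ψ : HomOn W M N} (h : ∀ V (hV : V ≤ W) s, φ.app V hV s = ψ.app V hV s) : φ = ψ := by
  ext V hV s
  exact h V hV s

variable (W M) in
/-- The identity. -/
@[simps]
def id : HomOn W M M where
  app _ _ := AddMonoidHom.id _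
  smul _ _ _ _ := rfl
  nat _ _ _ _ _ := rfl

/-- Composition. -/
@[simps]
def comp (φ : HomOn W M N) (ψ : HomOn W N K) : HomOn W M K where
  app V h := (ψ.app V h).comp (φ.app V h)
  smul V h r s := by simp [φ.smul, ψ.smul]
  nat V V' h h' s := by simp [ψ.nat V V' h h', φ.nat V V' h h']

/-- Restriction to a smaller open. -/
@[simps]
def restrict (φ : HomOn W M N) (h : W' ≤ W) : HomOn W' M N where
  app V hV := φ.app V (hV.trans h)
  smul V _ := φ.smul V _
  nat V V' _ h' := φ.nat V V' _ h'

/-- Multiplication by a function. -/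
@[simps]
def scale (φ : HomOn W M N) (r : Γ(X, W)) : HomOn W M N where
  app V h := (DistribSMul.toAddMonoidHom _ (rres h r)).comp (φ.app V h)
  smul V h a s := by simp [φ.smul, smul_smul, mul_comm]
  nat V V' h h' s := by simp [φ.nat V V' h h']

/-- A morphism of modules is a morphism over every open. -/
@[simps]
def ofHom (W : X.Opens) (φ : M ⟶ N) : HomOn W M N where
  app V _ := (φ.app V).hom
  smul _ _ r s := Scheme.Modules.Hom.app_smul φ r s
  nat _ _ _ h' s := (ConcreteCategory.congr_hom (φ.mapPresheaf.naturality (homOfLE h').op) s).symm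

/-- Morphisms over the pieces of a cover glue. -/
theorem exists_glue {ι : Type u} (U : ι → X.Opens) (hc : W ≤ iSup U)
    (φ : ∀ i, HomOn (U i) M N)
    (h : ∀ i j V (hi : V ≤ U i) (hj : V ≤ U j) s, (φ i).app V hi s = (φ j).app V hj s) :
    ∃ ψ : HomOn W M N, ∀ i V (hW : V ≤ W) (hi : V ≤ U i) s, ψ.app V hW s = (φ i).app V hi s := by
  have hcov : ∀ V, V ≤ W → V ≤ iSup fun i => V ⊓ U i := fun V hV => by
    rw [← inf_iSup_eq]
    exact le_inf le_rfl (hV.trans hc)
  have ex : ∀ V (hV : V ≤ W) (s : Γ(M, V)), ∃ t : Γ(N, V), ∀ i,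
      mres N inf_le_left t =
        (φ i).app (V ⊓ U i) inf_le_right (mres M inf_le_left s) := fun V hV s => by
    refine mres_glue (fun i => V ⊓ U i) (fun i => inf_le_left) (hcov V hV) _ fun i j => ?_
    simp only [HomOn.nat, mres_mres]
    exact h i j _ _ _ _
  choose app happ using ex
  have uniq : ∀ V (hV : V ≤ W) s t,
      (∀ i, mres N inf_le_left t = (φ i).app (V ⊓ U i) inf_le_right (mres M inf_le_left s)) →
      app V hV s = t := fun V hV s t ht =>
    mres_ext (fun i => V ⊓ U i) (fun i => inf_le_left) (hcov V hV) _ _ fun i =>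
      (happ V hV s i).trans (ht i).symm
  refine ⟨{ app := fun V hV => AddMonoidHom.mk' (app V hV) fun a b => uniq V hV _ _ fun i => by
              simp only [map_add, happ]
            smul := fun V hV r s => uniq V hV _ _ fun i => by
              rw [AddMonoidHom.mk'_apply, mres_smul, mres_smul, HomOn.smul, happ]
            nat := fun V V' hV h' s => (uniq V' _ _ _ fun i => ?_).symm }, ?_⟩
  · rw [AddMonoidHom.mk'_apply, mres_mres,
      ← mres_mres (inf_le_left : V ⊓ U i ≤ V) (inf_le_inf_right _ h') (app V hV s), happ,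
      HomOn.nat, mres_mres, mres_mres]
  · intro i V hV hi s
    refine uniq V hV s _ fun j => ?_
    rw [HomOn.nat]
    exact h i j _ _ _ _

/-- A morphism over everything is a morphism. -/
def toHom (φ : HomOn ⊤ M N) : M ⟶ N :=
  ⟨PresheafOfModules.homMk
    { app := fun V => AddCommGrpCat.ofHom (φ.app V.unop le_top)
      naturality := fun V V' f => by
        ext s
        exact (φ.nat V.unop V'.unop le_top (leOfHom f.unop) s).symm }
    fun V r s => φ.smul V.unop le_top r s⟩

variable {X' : Scheme.{u}} (j : X' ⟶ X) [IsOpenImmersion j]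

/-- An open inside the range is the image of its inverse image. -/
theorem le_image_preimage {V : X.Opens} (h : V ≤ j.opensRange) : V ≤ j ''ᵁ j ⁻¹ᵁ V :=
  (le_inf h le_rfl).trans_eq (j.image_preimage_eq_opensRange_inf V).symm

/-- The maps of a morphism of restrictions on the sections of the ambient scheme. -/
def sapp (θ : M.restrict j ⟶ N.restrict j) (U : X'.Opens) :
    Γ(M, j ''ᵁ U) →+ Γ(N, j ''ᵁ U) :=
  (θ.app U).hom

theorem sapp_smul (θ : M.restrict j ⟶ N.restrict j) (U : X'.Opens) (a : Γ(X, j ''ᵁ U))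
    (s : Γ(M, j ''ᵁ U)) : sapp j θ U (a • s) = a • sapp j θ U s := by
  have h := Scheme.Modules.Hom.app_smul θ ((j.appIso U).hom a) s
  have e : (j.appIso U).inv ((j.appIso U).hom a) = a := by simp
  have e1 : ∀ (L : X.Modules) (t : Γ(L, j ''ᵁ U)),
      HSMul.hSMul (α := Γ(X', U)) (β := Γ(L.restrict j, U)) ((j.appIso U).hom a) t =
        (j.appIso U).inv ((j.appIso U).hom a) • t := fun _ _ => rfl
  rw [e1 M, e] at h
  exact h.trans ((e1 N _).trans (by rw [e]; rfl))

theorem sapp_nat (θ : M.restrict j ⟶ N.restrict j) {U U' : X'.Opens} (h : U' ≤ U)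
    (s : Γ(M, j ''ᵁ U)) :
    mres N (j.image_mono h) (sapp j θ U s) = sapp j θ U' (mres M (j.image_mono h) s) :=
  (ConcreteCategory.congr_hom (θ.mapPresheaf.naturality (homOfLE h).op) s).symm

/-- A morphism of restrictions is a morphism over the range. -/
def ofRestrict (θ : M.restrict j ⟶ N.restrict j) : HomOn j.opensRange M N where
  app V h := (mres N (le_image_preimage j h)).comp
    ((sapp j θ (j ⁻¹ᵁ V)).comp (mres M (j.image_preimage_le V)))
  smul V h r s := by
    simp [sapp_smul]
  nat V V' h h' s := by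
    have hm : j ⁻¹ᵁ V' ≤ j ⁻¹ᵁ V := j.preimage_mono h'
    simp only [AddMonoidHom.coe_comp, Function.comp_apply, mres_mres]
    rw [← mres_mres (j.image_mono hm) (le_image_preimage j (h'.trans h)), sapp_nat j θ hm,
      mres_mres]

/-- A morphism over an open containing the range gives a morphism of restrictions. -/
def toRestrict (φ : HomOn W M N) (h : j.opensRange ≤ W) : M.restrict j ⟶ N.restrict j :=
  ⟨PresheafOfModules.homMk
    { app := fun U => AddCommGrpCat.ofHom
        (φ.app (j ''ᵁ U.unop) ((j.image_le_opensRange _).trans h))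
      naturality := fun U U' f => by
        ext s
        exact (φ.nat _ _ _ (j.image_mono (leOfHom f.unop)) s).symm }
    fun U r s => φ.smul _ _ ((j.appIso U.unop).inv r) s⟩

end HomOn

/-- An isomorphism of modules over an open subset. -/
structure IsoOn (W : X.Opens) (M N : X.Modules) : Type u where
  /-- the morphism -/
  hom : HomOn W M N
  /-- its inverse -/
  inv : HomOn W N M
  hom_inv : ∀ V h s, inv.app V h (hom.app V h s) = s
  inv_hom : ∀ V h s, hom.app V h (inv.app V h s) = s

namespace IsoOn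

variable {W W' : X.Opens}

/-- The identity. -/
@[simps]
def refl (W : X.Opens) (M : X.Modules) : IsoOn W M M :=
  ⟨HomOn.id M W, HomOn.id M W, fun _ _ _ => rfl, fun _ _ _ => rfl⟩

/-- The inverse. -/
@[simps]
def symm (φ : IsoOn W M N) : IsoOn W N M := ⟨φ.inv, φ.hom, φ.inv_hom, φ.hom_inv⟩

/-- Composition. -/
@[simps]
def trans (φ : IsoOn W M N) (ψ : IsoOn W N K) : IsoOn W M K where
  hom := φ.hom.comp ψ.hom
  inv := ψ.inv.comp φ.inv
  hom_inv V h s := by simp [φ.hom_inv, ψ.hom_inv]
  inv_hom V h s := by simp [φ.inv_hom, ψ.inv_hom]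

/-- Restriction to a smaller open. -/
@[simps]
def restrict (φ : IsoOn W M N) (h : W' ≤ W) : IsoOn W' M N :=
  ⟨φ.hom.restrict h, φ.inv.restrict h, fun V _ => φ.hom_inv V _, fun V _ => φ.inv_hom V _⟩

/-- Isomorphisms over the pieces of a cover of an open glue. -/
theorem exists_glue {ι : Type u} (U : ι → X.Opens) (hc : W ≤ iSup U)
    (φ : ∀ i, IsoOn (U i) M N)
    (h : ∀ i j V (hi : V ≤ U i) (hj : V ≤ U j) s,
      (φ i).hom.app V hi s = (φ j).hom.app V hj s) :
    ∃ e : IsoOn W M N, ∀ i V (hW : V ≤ W) (hi : V ≤ U i) s,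
      e.hom.app V hW s = (φ i).hom.app V hi s := by
  obtain ⟨a, ha⟩ := HomOn.exists_glue U hc (fun i => (φ i).hom) h
  obtain ⟨b, hb⟩ := HomOn.exists_glue U hc (fun i => (φ i).inv) fun i j V hi hj s => by
    have := h i j V hi hj ((φ i).inv.app V hi s)
    rw [(φ i).inv_hom] at this
    conv_rhs => rw [this, (φ j).hom_inv]
  have hcov : ∀ V, V ≤ W → V ≤ iSup fun i => V ⊓ U i := fun V hV => by
    rw [← inf_iSup_eq]
    exact le_inf le_rfl (hV.trans hc)
  refine ⟨⟨a, b, fun V hV s => ?_, fun V hV s => ?_⟩, ha⟩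
  · refine mres_ext (fun i => V ⊓ U i) (fun i => inf_le_left) (hcov V hV) _ _ fun i => ?_
    rw [b.nat, a.nat, ha i _ _ inf_le_right, hb i _ _ inf_le_right, (φ i).hom_inv]
  · refine mres_ext (fun i => V ⊓ U i) (fun i => inf_le_left) (hcov V hV) _ _ fun i => ?_
    rw [a.nat, b.nat, hb i _ _ inf_le_right, ha i _ _ inf_le_right, (φ i).inv_hom]

/-- Isomorphisms over the pieces of a cover give an isomorphism. -/
theorem exists_iso_of_glue {ι : Type u} (U : ι → X.Opens) (hc : ⊤ ≤ iSup U)
    (φ : ∀ i, IsoOn (U i) M N)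
    (h : ∀ i j V (hi : V ≤ U i) (hj : V ≤ U j) s,
      (φ i).hom.app V hi s = (φ j).hom.app V hj s) :
    ∃ e : M ≅ N, ∀ i V (hi : V ≤ U i) s, e.hom.app V s = (φ i).hom.app V hi s := by
  obtain ⟨e, he⟩ := exists_glue U hc φ h
  refine ⟨⟨e.hom.toHom, e.inv.toHom, Scheme.Modules.hom_ext _ _ fun V => ?_,
    Scheme.Modules.hom_ext _ _ fun V => ?_⟩, fun i V hi s => he i V le_top hi s⟩
  · ext s
    exact e.hom_inv V le_top s
  · ext s
    exact e.inv_hom V le_top s

variable {X' : Scheme.{u}} (j : X' ⟶ X) [IsOpenImmersion j]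

theorem sapp_comp {L : X.Modules} (θ : M.restrict j ⟶ N.restrict j)
    (θ' : N.restrict j ⟶ L.restrict j) (U : X'.Opens) (s : Γ(M, j ''ᵁ U)) :
    HomOn.sapp j θ' U (HomOn.sapp j θ U s) = HomOn.sapp j (θ ≫ θ') U s := rfl

theorem ofRestrict_comp_eq_id (θ : M.restrict j ⟶ N.restrict j) (θ' : N.restrict j ⟶ M.restrict j)
    (h : θ ≫ θ' = 𝟙 _) (V : X.Opens) (hV : V ≤ j.opensRange) (s : Γ(M, V)) :
    (HomOn.ofRestrict j θ').app V hV ((HomOn.ofRestrict j θ).app V hV s) = s := by
  simp only [HomOn.ofRestrict, AddMonoidHom.coe_comp, Function.comp_apply, mres_mres, mres_self,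
    sapp_comp, h]
  exact (mres_mres _ _ _).trans (mres_self _ _)

/-- An isomorphism of restrictions is an isomorphism over the range. -/
def ofRestrictIso (θ : M.restrict j ≅ N.restrict j) : IsoOn j.opensRange M N where
  hom := HomOn.ofRestrict j θ.hom
  inv := HomOn.ofRestrict j θ.inv
  hom_inv := ofRestrict_comp_eq_id j _ _ θ.hom_inv_id
  inv_hom := ofRestrict_comp_eq_id j _ _ θ.inv_hom_id

/-- An isomorphism over an open containing the range gives an isomorphism of restrictions. -/
def toRestrictIso (φ : IsoOn W M N) (h : j.opensRange ≤ W) : M.restrict j ≅ N.restrict j where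
  hom := HomOn.toRestrict j φ.hom h
  inv := HomOn.toRestrict j φ.inv h
  hom_inv_id := Scheme.Modules.hom_ext _ _ fun U => by ext s; exact φ.hom_inv _ _ s
  inv_hom_id := Scheme.Modules.hom_ext _ _ fun U => by ext s; exact φ.inv_hom _ _ s

/-- An isomorphism of pullbacks along an open immersion is an isomorphism over the range. -/
def ofPullbackIso
    (θ : (Scheme.Modules.pullback j).obj M ≅ (Scheme.Modules.pullback j).obj N) :
    IsoOn j.opensRange M N :=
  ofRestrictIso j ((Scheme.Modules.restrictFunctorIsoPullback j).app M ≪≫ θ ≪≫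
    ((Scheme.Modules.restrictFunctorIsoPullback j).app N).symm)

/-- An isomorphism over an open containing the range gives an isomorphism of pullbacks. -/
def toPullbackIso (φ : IsoOn W M N) (h : j.opensRange ≤ W) :
    (Scheme.Modules.pullback j).obj M ≅ (Scheme.Modules.pullback j).obj N :=
  ((Scheme.Modules.restrictFunctorIsoPullback j).app M).symm ≪≫ toRestrictIso j φ h ≪≫
    (Scheme.Modules.restrictFunctorIsoPullback j).app N

end IsoOn

/-- A generator of a module over an open subset. -/
def IsBasisOn (M : X.Modules) {W : X.Opens} (g : Γ(M, W)) : Prop :=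
  ∀ (V : X.Opens) (h : V ≤ W), Function.Bijective fun r : Γ(X, V) => r • mres M h g

namespace IsBasisOn

variable {W W' : X.Opens} {g : Γ(M, W)}

/-- The restriction of a generator generates. -/
theorem restrict (hg : IsBasisOn M g) (h : W' ≤ W) : IsBasisOn M (mres M h g) := fun V hV => by
  simpa using hg V (hV.trans h)

/-- Every section is a multiple of the generator. -/
theorem exists_smul (hg : IsBasisOn M g) {V : X.Opens} (h : V ≤ W) (s : Γ(M, V)) :
    ∃ r : Γ(X, V), r • mres M h g = s :=
  (hg V h).2 s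

/-- The coefficient of a multiple of the generator is unique. -/
theorem smul_inj (hg : IsBasisOn M g) {V : X.Opens} (h : V ≤ W) {a b : Γ(X, V)}
    (e : a • mres M h g = b • mres M h g) : a = b :=
  (hg V h).1 e

/-- The image of a generator under an isomorphism. -/
theorem map (hg : IsBasisOn M g) (φ : IsoOn W M N) : IsBasisOn N (φ.hom.app W le_rfl g) := by
  intro V hV
  constructor
  · intro a b e
    refine hg.smul_inj hV (?_ : a • mres M hV g = b • mres M hV g)
    have h := congrArg (φ.inv.app V hV) e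
    simpa [φ.inv.smul, φ.hom.nat W V le_rfl hV, φ.hom_inv] using h
  · intro s
    obtain ⟨r, hr⟩ := hg.exists_smul hV (φ.inv.app V hV s)
    refine ⟨r, ?_⟩
    have h := congrArg (φ.hom.app V hV) hr
    rw [φ.inv_hom, φ.hom.smul, ← φ.hom.nat W V le_rfl hV] at h
    exact h

/-- The morphism over an open given by a generator and its image. -/
theorem exists_homOn (hg : IsBasisOn M g) (g' : Γ(N, W)) :
    ∃ φ : HomOn W M N, ∀ V (h : V ≤ W) (r : Γ(X, V)),
      φ.app V h (r • mres M h g) = r • mres N h g' := by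
  choose co hco using fun (V : X.Opens) (h : V ≤ W) (s : Γ(M, V)) => hg.exists_smul h s
  have hco' : ∀ V (h : V ≤ W) (r : Γ(X, V)), co V h (r • mres M h g) = r := fun V h r =>
    hg.smul_inj h (hco V h _)
  refine ⟨{ app := fun V h => AddMonoidHom.mk' (fun s => co V h s • mres N h g') fun s t => ?_
            smul := fun V h r s => ?_
            nat := fun V V' h h' s => ?_ },
    fun V h r => congrArg (fun x : Γ(X, V) => x • mres N h g') (hco' V h r)⟩
  · rw [← add_smul]
    exact congrArg (fun x : Γ(X, V) => x • mres N h g')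
      (hg.smul_inj h (by rw [hco, add_smul, hco, hco]))
  · show co V h (r • s) • mres N h g' = r • co V h s • mres N h g'
    rw [smul_smul]
    exact congrArg (fun x : Γ(X, V) => x • mres N h g')
      (hg.smul_inj h (by rw [hco, mul_smul, hco]))
  · show mres N h' (co V h s • mres N h g') = co V' _ (mres M h' s) • mres N _ g'
    rw [mres_smul, mres_mres]
    exact congrArg (fun x : Γ(X, V') => x • mres N (h'.trans h) g') (hg.smul_inj (h'.trans h)
      (by rw [hco, ← mres_mres h h' g, ← mres_smul, hco]))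

/-- Modules with generators over an open are isomorphic over it. -/
theorem exists_isoOn {g' : Γ(N, W)} (hg : IsBasisOn M g) (hg' : IsBasisOn N g') :
    ∃ φ : IsoOn W M N, ∀ V (h : V ≤ W) (r : Γ(X, V)),
      φ.hom.app V h (r • mres M h g) = r • mres N h g' := by
  obtain ⟨a, ha⟩ := hg.exists_homOn g'
  obtain ⟨b, hb⟩ := hg'.exists_homOn g
  refine ⟨⟨a, b, fun V h s => ?_, fun V h s => ?_⟩, ha⟩
  · obtain ⟨r, rfl⟩ := hg.exists_smul h s
    rw [ha, hb]
  · obtain ⟨r, rfl⟩ := hg'.exists_smul h s
    rw [hb, ha]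

end IsBasisOn

/-- The section one generates the structure sheaf over every open. -/
theorem isBasisOn_unit (W : X.Opens) :
    IsBasisOn (SheafOfModules.unit X.ringCatSheaf : X.Modules) (W := W) (1 : Γ(X, W)) := by
  intro V hV
  have h : ∀ r : Γ(X, V), HSMul.hSMul (α := Γ(X, V))
      (β := Γ((SheafOfModules.unit X.ringCatSheaf : X.Modules), V)) r
      (mres (SheafOfModules.unit X.ringCatSheaf : X.Modules) hV (1 : Γ(X, W))) = r := fun r =>
    show r * rres hV (1 : Γ(X, W)) = r by rw [map_one, mul_one]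
  exact ⟨fun a b e => (h a).symm.trans (e.trans (h b)), fun s => ⟨s, h s⟩⟩

/-- An invertible module is locally free on one generator. -/
theorem exists_isBasisOn (hM : Scheme.Modules.IsInvertible M) (x : X) :
    ∃ (W : X.Opens) (g : Γ(M, W)), x ∈ W ∧ IsBasisOn M g := by
  obtain ⟨U, hx, ⟨θ⟩⟩ := hM.1 x
  let e : IsoOn U M (SheafOfModules.unit X.ringCatSheaf) :=
    (IsoOn.ofPullbackIso U.ι (θ ≪≫ (Scheme.Modules.pullbackUnitIso U.ι).symm)).restrict
      U.opensRange_ι.ge
  exact ⟨U, _, hx, (isBasisOn_unit U).map e.symm⟩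

end FermatAgent.Pic.Glue
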