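import Fermat.Agent.Pic.Bridge.Chart
import Fermat.Agent.Pic.Coh.H0Map
import Fermat.Agent.Pic.Glue.HomOn

/-!
# Functions on the curve over an affine base are functions on the base
-/

set_option autoImplicit false

noncomputable section

universe u

open CategoryTheory CategoryTheory.Limits AlgebraicGeometry NeronModelInfra
  AlgebraicGeometry.RelPicard Opposite
open scoped TensorProduct

namespace FermatAgent.Pic.Glue

variable {k : Type u} [Field k] {C : Scheme.{u}} (c : C ⟶ Spec (CommRingCat.of k))
  (A : Type u) [CommRing A] [Algebra k A] {S : Type u} [CommRing S] [Algebra k S]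
  (i : Spec (CommRingCat.of S) ⟶ C) (hi : i ≫ c = tA (k := k) S)

/-- The functions on a chart. -/
def chartFun : Γ(pullback c (tA (k := k) A), ⊤) →+* A ⊗[k] S :=
  ((Dict.chart A i hi).appTop ≫ (Scheme.ΓSpecIso _).hom).hom

theorem chartFun_snd (a : Γ(Spec (CommRingCat.of A), ⊤)) :
    chartFun c A i hi ((pullback.snd c (tA (k := k) A)).appTop a) =
      algebraMap A (A ⊗[k] S) ((Scheme.ΓSpecIso (CommRingCat.of A)).hom a) := by
  have h : (pullback.snd c (tA (k := k) A)).appTop ≫ (Dict.chart A i hi).appTop ≫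
      (Scheme.ΓSpecIso _).hom =
      (Scheme.ΓSpecIso (CommRingCat.of A)).hom ≫
        CommRingCat.ofHom (algebraMap A (A ⊗[k] S)) := by
    rw [← Category.assoc, ← Scheme.Hom.comp_appTop, Dict.chart_snd, Scheme.ΓSpecIso_naturality]
  exact ConcreteCategory.congr_hom h a

/-- Functions on a chart restricted along a map of charts. -/
theorem chartFun_map {S' : Type u} [CommRing S'] [Algebra k S'] (f : S →ₐ[k] S')
    (i' : Spec (CommRingCat.of S') ⟶ C) (hi' : i' ≫ c = tA (k := k) S')
    (h : Spec.map (CommRingCat.ofHom f.toRingHom) ≫ i = i')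
    (r : Γ(pullback c (tA (k := k) A), ⊤)) :
    chartFun c A i' hi' r =
      Algebra.TensorProduct.map (AlgHom.id A A) f (chartFun c A i hi r) := by
  have hj : Spec.map (CommRingCat.ofHom (Algebra.TensorProduct.map (AlgHom.id A A) f).toRingHom) ≫
      Dict.chart A i hi = Dict.chart A i' hi' :=
    Dict.chart_res A i hi f i' hi' h
  have h2 : (Dict.chart A i' hi').appTop ≫ (Scheme.ΓSpecIso _).hom =
      (Dict.chart A i hi).appTop ≫ (Scheme.ΓSpecIso _).hom ≫
        CommRingCat.ofHom (Algebra.TensorProduct.map (AlgHom.id A A) f).toRingHom := by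
    rw [← hj, Scheme.Hom.comp_appTop, Category.assoc, Scheme.ΓSpecIso_naturality]
  exact ConcreteCategory.congr_hom h2 r

theorem eq_of_chartFun_eq {S' : Type u} [CommRing S'] [Algebra k S']
    (i' : Spec (CommRingCat.of S') ⟶ C) (hi' : i' ≫ c = tA (k := k) S') [IsOpenImmersion i]
    [IsOpenImmersion i'] (hcov : Set.range i ∪ Set.range i' = Set.univ)
    {r r' : Γ(pullback c (tA (k := k) A), ⊤)} (h : chartFun c A i hi r = chartFun c A i hi r')
    (h' : chartFun c A i' hi' r = chartFun c A i' hi' r') : r = r' := by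
  have aux : ∀ {Y : Scheme.{u}} (j : Y ⟶ pullback c (tA (k := k) A)) [IsOpenImmersion j],
      j.appTop r = j.appTop r' →
        rres (le_top : j.opensRange ≤ ⊤) r = rres (le_top : j.opensRange ≤ ⊤) r' := by
    intro Y j _ e
    have := j.isIso_app j.opensRange le_rfl
    refine (ConcreteCategory.bijective_of_isIso (j.app j.opensRange)).1 ?_
    have hn : ∀ x : Γ(pullback c (tA (k := k) A), ⊤),
        j.app j.opensRange (rres le_top x) = rres (j.preimage_mono le_top) (j.appTop x) := fun x =>
      ConcreteCategory.congr_hom (j.naturality (homOfLE le_top).op) x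
    rw [hn, hn, e]
  have e0 := aux (Dict.chart A i hi)
    ((ConcreteCategory.bijective_of_isIso (Scheme.ΓSpecIso _).hom).1 h)
  have e1 := aux (Dict.chart A i' hi')
    ((ConcreteCategory.bijective_of_isIso (Scheme.ΓSpecIso _).hom).1 h')
  refine rres_ext (fun b : ULift.{u} Bool =>
    if b.down then (Dict.chart A i hi).opensRange else (Dict.chart A i' hi').opensRange)
    (fun b => le_top) (fun z _ => ?_) r r' fun b => ?_
  · have hz : pullback.fst c (tA (k := k) A) z ∈ Set.range i ∪ Set.range i' :=
      hcov ▸ Set.mem_univ _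
    rcases hz with hz | hz
    · exact TopologicalSpace.Opens.mem_iSup.2 ⟨⟨true⟩,
        (Set.ext_iff.mp (Dict.range_chart A i hi) z).mpr hz⟩
    · exact TopologicalSpace.Opens.mem_iSup.2 ⟨⟨false⟩,
        (Set.ext_iff.mp (Dict.range_chart A i' hi') z).mpr hz⟩
  · obtain ⟨_ | _⟩ := b
    · exact e1
    · exact e0

variable {c} {ε : SchemeHomOver (𝟙 (Spec (CommRingCat.of k))) c}

/-- **Functions on the curve over an affine base are functions on the base.** -/
theorem bijective_rigSection_appTop (P : Pres c ε) :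
    ∀ (A : Type u) [CommRing A] [Algebra k A],
      Function.Bijective (rigSection c (tA (k := k) A) ε).appTop := by
  intro A _ _
  have := P.open0
  have := P.open1
  set i01 := Spec.map (CommRingCat.ofHom (algebraMap P.X.R0 P.X.R01)) ≫ P.i0
  have hover : i01 ≫ c = tA (k := k) P.X.R01 := by
    rw [Category.assoc, P.over0, ← Spec.map_comp, ← CommRingCat.ofHom_comp,
      ← IsScalarTower.algebraMap_eq]
  have hsec : ∀ s, (rigSection c (tA (k := k) A) ε).appTop
      ((pullback.snd c (tA (k := k) A)).appTop s) = s := fun s => by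
    rw [← ConcreteCategory.comp_apply, ← Scheme.Hom.comp_appTop, rigSection, pullback.lift_snd]
    rfl
  have key : ∀ r : Γ(pullback c (tA (k := k) A), ⊤),
      r = (pullback.snd c (tA (k := k) A)).appTop ((rigSection c (tA (k := k) A) ε).appTop r) := by
    intro r
    have e0 : chartFun c A i01 hover r =
        P.X.res0 A (chartFun c A P.i0 P.over0 r) :=
      chartFun_map c A P.i0 P.over0 (IsScalarTower.toAlgHom k P.X.R0 P.X.R01) i01 hover rfl r
    have e1 : chartFun c A i01 hover r =
        P.X.res1 A (chartFun c A P.i1 P.over1 r) :=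
      chartFun_map c A P.i1 P.over1 (IsScalarTower.toAlgHom k P.X.R1 P.X.R01) i01 hover
        P.overlap.w.symm r
    have hmem : P.X.res0 A (chartFun c A P.i0 P.over0 r) ∈ (Bdl.one P.X A).H0 :=
      ⟨Bdl.mem_L0_one'.mpr ⟨_, rfl⟩, Bdl.mem_L1_one'.mpr ⟨_, e1.symm.trans e0⟩⟩
    obtain ⟨a, ha⟩ := Bdl.mem_H0_one.mp hmem
    have h0 : chartFun c A P.i0 P.over0 r = algebraMap A _ a :=
      P.X.res0_injective A (by rw [← ha, AlgHom.commutes])
    have h1 : chartFun c A P.i1 P.over1 r = algebraMap A _ a :=
      P.X.res1_injective A (by rw [← e1, e0, ← ha, AlgHom.commutes])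
    have hr : r = (pullback.snd c (tA (k := k) A)).appTop
        ((Scheme.ΓSpecIso (CommRingCat.of A)).inv a) := by
      refine eq_of_chartFun_eq c A P.i0 P.over0 P.i1 P.over1 P.cover ?_ ?_
      · rw [h0, chartFun_snd]
        simp
      · rw [h1, chartFun_snd]
        simp
    conv_rhs => rw [hr]
    rw [hr, hsec]
  exact ⟨fun r r' h => by rw [key r, key r', h], fun s => ⟨_, hsec s⟩⟩

end FermatAgent.Pic.Glue
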