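import Fermat.Agent.Pic.Glue.Module
import Fermat.Agent.Pic.Glue.Descend
import Fermat.Agent.Pic.Glue.AppTop
import Fermat.Agent.Pic.Rep.Sheaf

/-!
# Rigidified classes glue

If functions on the curve over an affine base are the functions on the base, rigidified
isomorphisms are unique; so classes agreeing on overlaps give a cocycle, and glue.
-/

set_option autoImplicit false

noncomputable section

universe u

open CategoryTheory CategoryTheory.Limits AlgebraicGeometry NeronModelInfra
  AlgebraicGeometry.RelPicard Opposite TopologicalSpace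

namespace FermatAgent.Pic.Glue

variable {R : Type u} [CommRing R] {C : Scheme.{u}} (c : C ⟶ Spec (CommRingCat.of R))
  {T T' : Scheme.{u}}

/-- The part of the curve over an open of the base. -/
abbrev overBase (t : T ⟶ Spec (CommRingCat.of R)) (T0 : T.Opens) : (pullback c t).Opens :=
  pullback.snd c t ⁻¹ᵁ T0

instance isOpenImmersion_baseChangeSnd {t : T ⟶ Spec (CommRingCat.of R)}
    {t' : T' ⟶ Spec (CommRingCat.of R)} (s : SchemeHomOver t' t) [IsOpenImmersion s.1] :
    IsOpenImmersion (baseChangeSnd c s) := by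
  unfold baseChangeSnd
  infer_instance

theorem opensRange_baseChangeSnd {t : T ⟶ Spec (CommRingCat.of R)}
    {t' : T' ⟶ Spec (CommRingCat.of R)} (s : SchemeHomOver t' t) [IsOpenImmersion s.1] :
    (baseChangeSnd c s).opensRange = overBase c t s.1.opensRange := by
  refine Opens.ext ?_
  show Set.range (baseChangeSnd c s) = (pullback.snd c t) ⁻¹' Set.range s.1
  unfold baseChangeSnd
  rw [Scheme.Pullback.range_map]
  simp

variable (ε : SchemeHomOver (𝟙 (Spec (CommRingCat.of R))) c)

theorem rigSection_snd (t : T ⟶ Spec (CommRingCat.of R)) :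
    rigSection c t ε ≫ pullback.snd c t = 𝟙 T :=
  pullback.lift_snd _ _ _

theorem preimage_overBase (t : T ⟶ Spec (CommRingCat.of R)) (T0 : T.Opens) :
    rigSection c t ε ⁻¹ᵁ overBase c t T0 = T0 := by
  rw [← Scheme.Hom.comp_preimage, rigSection_snd]
  rfl

/-- Functions on the curve over an affine base vanish if their restriction to the section does. -/
def SectionsInj : Prop :=
  ∀ (A : CommRingCat.{u}) (t : Spec A ⟶ Spec (CommRingCat.of R)),
    Function.Injective (rigSection c t ε).appTop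

variable {c ε}

theorem bijective_app_overBase (H : SectionsInj c ε) (t : T ⟶ Spec (CommRingCat.of R))
    (T0 : T.Opens) : Function.Bijective ((rigSection c t ε).app (overBase c t T0)) := by
  constructor
  · rw [injective_iff_map_eq_zero]
    intro r hr
    refine rres_ext (ι := {U : T.affineOpens // U.1 ≤ T0}) (fun U => overBase c t U.1.1)
      (fun U => (pullback.snd c t).preimage_mono U.2) ?_ _ _ fun U => ?_
    · intro z hz
      obtain ⟨V, hV, hzV, hVT⟩ :=
        Opens.isBasis_iff_nbhd.mp T.isBasis_affineOpens (show pullback.snd c t z ∈ T0 from hz)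
      exact Opens.mem_iSup.2 ⟨⟨⟨V, hV⟩, hVT⟩, hzV⟩
    · obtain ⟨⟨U, (hU : IsAffineOpen U)⟩, hUT⟩ := U
      let s : SchemeHomOver (hU.fromSpec ≫ t) t := ⟨hU.fromSpec, rfl⟩
      have : IsOpenImmersion s.1 := hU.isOpenImmersion_fromSpec
      set j := baseChangeSnd c s with hj
      have hjr : j.opensRange = overBase c t U := by
        exact (opensRange_baseChangeSnd c s).trans (congrArg _ hU.opensRange_fromSpec)
      have htop : j ⁻¹ᵁ overBase c t T0 = ⊤ := by
        refine top_le_iff.1 fun z _ => ?_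
        have hz : j z ∈ overBase c t U := hjr ▸ (⟨z, rfl⟩ : j z ∈ j.opensRange)
        exact (pullback.snd c t).preimage_mono hUT hz
      have h0 : j.app (overBase c t T0) r = 0 := by
        refine (ConcreteCategory.bijective_of_isIso
          ((pullback c (hU.fromSpec ≫ t)).presheaf.map (eqToHom htop.symm).op)).1 ?_
        rw [map_zero]
        refine H _ (hU.fromSpec ≫ t) ?_
        rw [map_zero]
        have hsq : rigSection c (hU.fromSpec ≫ t) ε ≫ j = hU.fromSpec ≫ rigSection c t ε :=
          rigSection_baseChangeSnd c ε s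
        have e := ConcreteCategory.congr_hom (Scheme.Hom.congr_app hsq (overBase c t T0)) r
        have e' : (rigSection c (hU.fromSpec ≫ t) ε).app _ (j.app _ r) =
            (Spec Γ(T, U)).presheaf.map (eqToHom (by
              rw [← Scheme.Hom.comp_preimage, hsq, Scheme.Hom.comp_preimage])).op
              (hU.fromSpec.app _ ((rigSection c t ε).app (overBase c t T0) r)) := e
        rw [hr, map_zero, map_zero] at e'
        refine (rres_app (rigSection c (hU.fromSpec ≫ t) ε) htop.ge (j.app _ r)).symm.trans ?_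
        show rres _ _ = _
        rw [e', map_zero]
        rfl
      rw [map_zero]
      refine app_injective j (hjr.ge) ?_
      rw [map_zero, ← rres_app j ((pullback.snd c t).preimage_mono hUT), h0, map_zero]
  · intro s
    let s' : Γ(T, T0) := rres (preimage_overBase c ε t T0).ge s
    refine ⟨(pullback.snd c t).app T0 s', ?_⟩
    have e : (rigSection c t ε).app _ ((pullback.snd c t).app T0 s') =
        rres (preimage_overBase c ε t T0).le s' :=
      (ConcreteCategory.congr_hom (Scheme.Hom.congr_app (rigSection_snd c ε t) T0) s')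
    refine e.trans ?_
    simp [s']

theorem nonempty_rigOn_bundle {t : T ⟶ Spec (CommRingCat.of R)}
    (M : RigidifiedLineBundle c ε t) : Nonempty (RigOn (rigSection c t ε) ⊤ M.L) :=
  nonempty_rigOn (rigSection_snd c ε t) M.isInvertible M.rigidified.some

theorem exists_compat_over (H : SectionsInj c ε) (t : T ⟶ Spec (CommRingCat.of R)) (T0 : T.Opens)
    {W : (pullback c t).Opens} (hW : W = overBase c t T0) {M N : (pullback c t).Modules}
    (a : RigOn (rigSection c t ε) W M) (b : RigOn (rigSection c t ε) W N) (φ : IsoOn W M N) :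
    ∃ ψ : IsoOn W M N, RigOn.Compat a b ψ.hom := by
  subst hW
  exact RigOn.exists_compat (bijective_app_overBase H t T0).2
    (bijective_app_overBase H t T0).1 a b φ

theorem eq_of_compat_over (H : SectionsInj c ε) (t : T ⟶ Spec (CommRingCat.of R)) (T0 : T.Opens)
    {W : (pullback c t).Opens} (hW : W = overBase c t T0) {M N : (pullback c t).Modules}
    (hM : LocFreeOn M W) (a : RigOn (rigSection c t ε) W M) (b : RigOn (rigSection c t ε) W N)
    (φ ψ : IsoOn W M N) (hφ : RigOn.Compat a b φ.hom) (hψ : RigOn.Compat a b ψ.hom)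
    (V : (pullback c t).Opens) (hV : V ≤ W) (s : Γ(M, V)) :
    φ.hom.app V hV s = ψ.hom.app V hV s := by
  subst hW
  rw [RigOn.eq_of_compat (bijective_app_overBase H t T0).1 hM a b φ ψ hφ hψ]

/-- The curve over an overlap of two pieces of the base lies in the image of the fibre product. -/
private theorem overBase_inf_le_opensRange (t : T ⟶ Spec (CommRingCat.of R))
    (𝒰 : Scheme.OpenCover.{u + 1} T) (i i' : 𝒰.I₀) :
    overBase c t (𝒰.f i).opensRange ⊓ overBase c t (𝒰.f i').opensRange ≤
      (baseChangeSnd c (⟨pullback.fst (𝒰.f i) (𝒰.f i'), rfl⟩ :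
          SchemeHomOver (pullback.fst (𝒰.f i) (𝒰.f i') ≫ 𝒰.f i ≫ t) (𝒰.f i ≫ t)) ≫
        baseChangeSnd c (t := t) (t' := 𝒰.f i ≫ t) ⟨𝒰.f i, rfl⟩).opensRange := by
  let s1 : SchemeHomOver (pullback.fst (𝒰.f i) (𝒰.f i') ≫ 𝒰.f i ≫ t) (𝒰.f i ≫ t) :=
    ⟨pullback.fst (𝒰.f i) (𝒰.f i'), rfl⟩
  rintro z ⟨⟨y, hy⟩, hz'⟩
  have hy' : y ∈ Set.range (pullback.fst (𝒰.f i) (𝒰.f i')) := by
    rw [Scheme.Pullback.range_fst]
    show 𝒰.f i y ∈ Set.range (𝒰.f i')
    rw [hy]
    exact hz'
  obtain ⟨w, rfl⟩ := hy'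
  have : IsOpenImmersion (postComp (⟨𝒰.f i, rfl⟩ :
      SchemeHomOver (𝒰.f i ≫ t) t) s1).1 :=
    inferInstanceAs (IsOpenImmersion (pullback.fst (𝒰.f i) (𝒰.f i') ≫ 𝒰.f i))
  have hz : z ∈ (baseChangeSnd c (postComp (⟨𝒰.f i, rfl⟩ :
      SchemeHomOver (𝒰.f i ≫ t) t) s1)).opensRange := by
    rw [opensRange_baseChangeSnd]
    exact ⟨w, (Scheme.Hom.comp_apply _ _ _).trans hy⟩
  obtain ⟨v, hv⟩ := hz
  exact ⟨v, by rw [← hv, ← baseChangeSnd_comp]⟩

/-- Classes which agree on the pieces of a cover are equal. -/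
private theorem sameClass_of_local (H : SectionsInj c ε) (t : T ⟶ Spec (CommRingCat.of R))
    (𝒰 : Scheme.OpenCover.{u + 1} T) (M M' : RigidifiedLineBundle c ε t)
    (hMM' : ∀ i, SameClass (restrictPiece (𝒰.f i) M) (restrictPiece (𝒰.f i) M')) :
    SameClass M M' := by
  obtain ⟨a⟩ := nonempty_rigOn_bundle M
  obtain ⟨a'⟩ := nonempty_rigOn_bundle M'
  let R0 : T → T.Opens := fun x => (𝒰.f (𝒰.idx x)).opensRange
  let W : T → (pullback c t).Opens := fun x => overBase c t (R0 x)
  have hψ : ∀ x, ∃ ψ : IsoOn (W x) M.L M'.L,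
      RigOn.Compat (a.restrict le_top) (a'.restrict le_top) ψ.hom := fun x => by
    obtain ⟨e⟩ := hMM' (𝒰.idx x)
    let s : SchemeHomOver (𝒰.f (𝒰.idx x) ≫ t) t := ⟨𝒰.f (𝒰.idx x), rfl⟩
    have : IsOpenImmersion s.1 := inferInstanceAs (IsOpenImmersion (𝒰.f (𝒰.idx x)))
    exact exists_compat_over H t (R0 x) rfl _ _
      ((IsoOn.ofPullbackIso (baseChangeSnd c s) e).restrict (opensRange_baseChangeSnd c s).ge)
  choose ψ hψc using hψ
  obtain ⟨e, -⟩ := IsoOn.exists_iso_of_glue W
    (fun z _ => Opens.mem_iSup.2 ⟨(pullback.snd c t z : T), 𝒰.covers _⟩) ψ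
    fun x y V hx hy s => eq_of_compat_over H t (R0 x ⊓ R0 y) (W := W x ⊓ W y) rfl
      (locFreeOn_of_isInvertible M.isInvertible _) (a.restrict le_top) (a'.restrict le_top)
      ((ψ x).restrict inf_le_left) ((ψ y).restrict inf_le_right)
      (fun V' hV' s' => hψc x V' (hV'.trans inf_le_left) s')
      (fun V' hV' s' => hψc y V' (hV'.trans inf_le_right) s') V (le_inf hx hy) s
  exact ⟨e⟩

/-- **Classes glue**: if functions on the curve over an affine base are determined by their
restriction to the marked section, then rigidified classes agreeing on overlaps glue uniquely. -/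
theorem classGluing (H : SectionsInj c ε) : ClassGluing c ε := by
  constructor
  · intro T t 𝒰 M hM
    let σ := rigSection c t ε
    let R0 : 𝒰.I₀ → T.Opens := fun i => (𝒰.f i).opensRange
    let W : 𝒰.I₀ → (pullback c t).Opens := fun i => overBase c t (R0 i)
    let j : ∀ i, pullback c (𝒰.f i ≫ t) ⟶ pullback c t :=
      fun i => baseChangeSnd c (t := t) (t' := 𝒰.f i ≫ t) ⟨𝒰.f i, rfl⟩
    have : ∀ i, IsOpenImmersion (j i) := fun i => isOpenImmersion_baseChangeSnd c _
    have hjr : ∀ i, (j i).opensRange = W i := fun i => opensRange_baseChangeSnd c _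
    let N : 𝒰.I₀ → (pullback c t).Modules := fun i =>
      (Scheme.Modules.pushforward (j i)).obj (M i).L
    have hN : ∀ i, LocFreeOn (N i) (W i) := fun i =>
      hjr i ▸ locFreeOn_pushforward (j i) (M i).isInvertible
    have ha : ∀ i, Nonempty (RigOn σ (W i) (N i)) := fun i =>
      RigOn.nonempty_descend (f' := rigSection c (𝒰.f i ≫ t) ε) (𝒰.f i) (j i)
        (rigSection_baseChangeSnd c ε _) (nonempty_rigOn_bundle (M i)).some (hjr i).ge
        (preimage_overBase c ε t (R0 i)).le
    have a : ∀ i, RigOn σ (W i) (N i) := fun i => (ha i).some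
    have hφ : ∀ i i', ∃ φ : IsoOn (W i ⊓ W i') (N i) (N i'),
        RigOn.Compat ((a i).restrict inf_le_left) ((a i').restrict inf_le_right) φ.hom := by
      intro i i'
      let s1 : SchemeHomOver (pullback.fst (𝒰.f i) (𝒰.f i') ≫ 𝒰.f i ≫ t) (𝒰.f i ≫ t) :=
        ⟨pullback.fst (𝒰.f i) (𝒰.f i'), rfl⟩
      let s2 : SchemeHomOver (pullback.fst (𝒰.f i) (𝒰.f i') ≫ 𝒰.f i ≫ t) (𝒰.f i' ≫ t) :=
        ⟨pullback.snd (𝒰.f i) (𝒰.f i'), by rw [← pullback.condition_assoc]⟩
      have : IsOpenImmersion s1.1 :=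
        inferInstanceAs (IsOpenImmersion (pullback.fst (𝒰.f i) (𝒰.f i')))
      have heq : baseChangeSnd c s2 ≫ j i' = baseChangeSnd c s1 ≫ j i := by
        simp only [j, baseChangeSnd_comp]
        congr 1
        exact Subtype.ext pullback.condition.symm
      obtain ⟨e⟩ := hM i i'
      have hle : W i ⊓ W i' ≤ (baseChangeSnd c s1 ≫ j i).opensRange :=
        overBase_inf_le_opensRange t 𝒰 i i'
      let θ : (Scheme.Modules.pullback (baseChangeSnd c s1 ≫ j i)).obj (N i) ≅
          (Scheme.Modules.pullback (baseChangeSnd c s1 ≫ j i)).obj (N i') :=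
        ((Scheme.Modules.pullbackComp (baseChangeSnd c s1) (j i)).app (N i)).symm ≪≫
          (Scheme.Modules.pullback (baseChangeSnd c s1)).mapIso
            (pullbackPushforwardIso (j i) (M i).L) ≪≫ e ≪≫
          (Scheme.Modules.pullback (baseChangeSnd c s2)).mapIso
            (pullbackPushforwardIso (j i') (M i').L).symm ≪≫
          (Scheme.Modules.pullbackComp (baseChangeSnd c s2) (j i')).app (N i') ≪≫
          (Scheme.Modules.pullbackCongr heq).app (N i')
      exact exists_compat_over H t (R0 i ⊓ R0 i') rfl _ _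
        ((IsoOn.ofPullbackIso (baseChangeSnd c s1 ≫ j i) θ).restrict hle)
    choose φ hφc using hφ
    -- the cocycle
    have hcomp : ∀ i i' i'' V (h1 : V ≤ W i ⊓ W i') (h2 : V ≤ W i' ⊓ W i'')
        (h3 : V ≤ W i ⊓ W i'') s,
        (φ i' i'').hom.app V h2 ((φ i i').hom.app V h1 s) = (φ i i'').hom.app V h3 s := by
      intro i i' i'' V h1 h2 h3 s
      have l12 : W i ⊓ W i' ⊓ W i'' ≤ W i ⊓ W i' := inf_le_left
      have l23 : W i ⊓ W i' ⊓ W i'' ≤ W i' ⊓ W i'' :=
        le_inf (inf_le_left.trans inf_le_right) inf_le_right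
      have l13 : W i ⊓ W i' ⊓ W i'' ≤ W i ⊓ W i'' :=
        le_inf (inf_le_left.trans inf_le_left) inf_le_right
      exact eq_of_compat_over H t (R0 i ⊓ R0 i' ⊓ R0 i'') (W := W i ⊓ W i' ⊓ W i'') rfl
        ((hN i).mono (inf_le_left.trans inf_le_left))
        ((a i).restrict (inf_le_left.trans inf_le_left)) ((a i'').restrict inf_le_right)
        (((φ i i').restrict l12).trans ((φ i' i'').restrict l23)) ((φ i i'').restrict l13)
        (fun V' hV' s' => (hφc i' i'' V' (hV'.trans l23) _).trans
          (hφc i i' V' (hV'.trans l12) s'))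
        (fun V' hV' s' => hφc i i'' V' (hV'.trans l13) s') V
        (le_inf h1 (h2.trans inf_le_right)) s
    have hid : ∀ i V (h : V ≤ W i ⊓ W i) s, (φ i i).hom.app V h s = s := fun i V h s =>
      eq_of_compat_over H t (R0 i ⊓ R0 i) (W := W i ⊓ W i) rfl ((hN i).mono inf_le_left)
        ((a i).restrict inf_le_left) ((a i).restrict inf_le_right) (φ i i) (IsoOn.refl _ _)
        (hφc i i) (fun _ _ _ => rfl) V h s
    let D : GlueData (pullback c t) :=
      { ι := T
        U := fun x => W (𝒰.idx x)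
        N := fun x => N (𝒰.idx x)
        φ := fun x y => (φ _ _).hom
        id_apply := fun x => hid _
        comp_apply := fun x y z => hcomp _ _ _ }
    have hcov : ⊤ ≤ iSup D.U := fun z _ =>
      Opens.mem_iSup.2 ⟨(pullback.snd c t z : T), 𝒰.covers _⟩
    let aL : ∀ x : T, RigOn σ (D.U x) D.glued := fun x =>
      (a (𝒰.idx x)).transport (D.gluedIso x).symm
    obtain ⟨b, hb⟩ := RigOn.exists_glue D.U hcov aL fun x y V hx hy s => by
      show (a _).ev V hx ((D.gluedIso x).hom.app V hx s) =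
        (a _).ev V hy ((D.gluedIso y).hom.app V hy s)
      rw [← D.φ_gluedIso x y V hx hy s]
      exact (hφc _ _ V (le_inf hx hy) _).symm
    have hL : LocFreeOn D.glued ⊤ := fun z _ => by
      obtain ⟨x, hx⟩ := Opens.mem_iSup.1 (hcov (trivial : z ∈ (⊤ : (pullback c t).Opens)))
      obtain ⟨V, g, hV, hzV, hg⟩ := ((hN _).of_iso (D.gluedIso x).symm) z hx
      exact ⟨V, g, le_top, hzV, hg⟩
    refine ⟨⟨D.glued, isInvertible_of_locFreeOn hL, nonempty_iso_of_rigOn b⟩, fun i => ?_⟩
    have hcW : W i ≤ iSup fun x => D.U x ⊓ W i := fun z hz => by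
      obtain ⟨x, hx⟩ := Opens.mem_iSup.1 (hcov (trivial : z ∈ (⊤ : (pullback c t).Opens)))
      exact Opens.mem_iSup.2 ⟨x, hx, hz⟩
    let χ : ∀ x, IsoOn (D.U x ⊓ W i) D.glued (N i) := fun x =>
      ((D.gluedIso x).restrict inf_le_left).trans (φ (𝒰.idx x) i)
    have hχ : ∀ x V (hV : V ≤ D.U x ⊓ W i) s,
        (a i).ev V (hV.trans inf_le_right) ((χ x).hom.app V hV s) = b.ev V le_top s :=
      fun x V hV s => (hφc _ i V hV _).trans (hb x V (hV.trans inf_le_left) s).symm
    obtain ⟨e, -⟩ := IsoOn.exists_glue (fun x => D.U x ⊓ W i) hcW χ fun x y V hx hy s =>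
      eq_of_compat_over H t (R0 (𝒰.idx x) ⊓ R0 i ⊓ (R0 (𝒰.idx y) ⊓ R0 i))
        (W := D.U x ⊓ W i ⊓ (D.U y ⊓ W i)) rfl
        (hL.mono le_top) (b.restrict le_top)
        ((a i).restrict (inf_le_left.trans inf_le_right))
        ((χ x).restrict inf_le_left) ((χ y).restrict inf_le_right)
        (fun V' hV' s' => hχ x V' (hV'.trans inf_le_left) s')
        (fun V' hV' s' => hχ y V' (hV'.trans inf_le_right) s') V (le_inf hx hy) s
    exact ⟨IsoOn.toPullbackIso (j i) e (hjr i).le ≪≫ pullbackPushforwardIso (j i) (M i).L⟩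
  · intro T t 𝒰 M M' hMM'
    exact sameClass_of_local H t 𝒰 M M' hMM'

/-- **Classes glue on a presented curve**: functions on the curve over each affine base are those
on the base. -/
theorem classGluing_of_pres {k : Type u} [Field k] {C : Scheme.{u}}
    {c : C ⟶ Spec (CommRingCat.of k)} {ε : SchemeHomOver (𝟙 (Spec (CommRingCat.of k))) c}
    (P : Pres c ε) : ClassGluing c ε := by
  refine classGluing fun A t => ?_
  obtain ⟨φ, rfl⟩ := Spec.map_surjective t
  let : Algebra k A := φ.hom.toAlgebra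
  exact (bijective_rigSection_appTop P (A := A)).1

end FermatAgent.Pic.Glue
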