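import Fermat.Agent.Pic.Glue.HomOn

/-!
# Rigidifications along a morphism, on sections

A rigidification of `M` along `f : T ⟶ X` over an open `W` evaluates sections of `M` to functions
on the preimage, some generator going to a unit near every point.  An isomorphism respecting two
rigidifications is unique, and exists, if functions on `W` are the functions on its preimage.
-/

set_option autoImplicit false

noncomputable section

universe u

open CategoryTheory AlgebraicGeometry Opposite TopologicalSpace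

namespace FermatAgent.Pic.Glue

variable {X T : Scheme.{u}} {M N : X.Modules}

/-- The structure sheaf as a module. -/
abbrev unitMod (T : Scheme.{u}) : T.Modules := SheafOfModules.unit T.ringCatSheaf

/-- A section of the structure sheaf as a function. -/
def unitFn {D : T.Opens} : Γ(unitMod T, D) →+ Γ(T, D) where
  toFun s := s
  map_zero' := rfl
  map_add' _ _ := rfl

/-- Inverse images of functions commute with restriction. -/
theorem rres_app (f : T ⟶ X) {V V' : X.Opens} (h : V' ≤ V) (r : Γ(X, V)) :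
    rres (f.preimage_mono h) (f.app V r) = f.app V' (rres h r) :=
  (ConcreteCategory.congr_hom (f.naturality (homOfLE h).op) r).symm

/-- Every point of an open has a neighbourhood where the module is free on one generator. -/
def LocFreeOn (M : X.Modules) (W : X.Opens) : Prop :=
  ∀ x ∈ W, ∃ (V : X.Opens) (g : Γ(M, V)), V ≤ W ∧ x ∈ V ∧ IsBasisOn M g

/-- An invertible module is locally free on every open. -/
theorem locFreeOn_of_isInvertible (hM : Scheme.Modules.IsInvertible M) (W : X.Opens) :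
    LocFreeOn M W := fun x hx => by
  obtain ⟨V, g, hV, hg⟩ := exists_isBasisOn hM x
  exact ⟨V ⊓ W, mres M inf_le_left g, inf_le_right, ⟨hV, hx⟩, hg.restrict _⟩

/-- Local freeness passes to smaller opens. -/
theorem LocFreeOn.mono {W W' : X.Opens} (hM : LocFreeOn M W) (h : W' ≤ W) : LocFreeOn M W' :=
  fun x hx => by
  obtain ⟨V, g, hVW, hxV, hg⟩ := hM x (h hx)
  exact ⟨V ⊓ W', mres M inf_le_left g, inf_le_right, ⟨hxV, hx⟩, hg.restrict _⟩

/-- Local freeness is invariant under isomorphism. -/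
theorem LocFreeOn.of_iso {W : X.Opens} (hM : LocFreeOn M W) (φ : IsoOn W M N) : LocFreeOn N W :=
  fun x hx => by
  obtain ⟨V, g, hVW, hxV, hg⟩ := hM x hx
  exact ⟨V, _, hVW, hxV, hg.map (φ.restrict hVW)⟩

/-- A rigidification along `f` over an open subset. -/
structure RigOn (f : T ⟶ X) (W : X.Opens) (M : X.Modules) : Type u where
  /-- evaluation of sections -/
  ev : ∀ V : X.Opens, V ≤ W → (Γ(M, V) →+ Γ(T, f ⁻¹ᵁ V))
  smul : ∀ (V : X.Opens) (h : V ≤ W) (r : Γ(X, V)) (s : Γ(M, V)),
    ev V h (r • s) = f.app V r * ev V h s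
  nat : ∀ (V V' : X.Opens) (h : V ≤ W) (h' : V' ≤ V) (s : Γ(M, V)),
    rres (f.preimage_mono h') (ev V h s) = ev V' (h'.trans h) (mres M h' s)
  gen : ∀ x : T, f x ∈ W → ∃ (V : X.Opens) (h : V ≤ W) (g : Γ(M, V)),
    f x ∈ V ∧ IsBasisOn M g ∧ IsUnit (ev V h g)

namespace RigOn

variable {f : T ⟶ X} {W W' : X.Opens}

/-- Restriction to a smaller open. -/
def restrict (a : RigOn f W M) (h : W' ≤ W) : RigOn f W' M where
  ev V hV := a.ev V (hV.trans h)
  smul V _ := a.smul V _
  nat V V' _ h' := a.nat V V' _ h'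
  gen x hx := by
    obtain ⟨V, hV, g, hxV, hg, hu⟩ := a.gen x (h hx)
    refine ⟨V ⊓ W', inf_le_right, mres M inf_le_left g, ⟨hxV, hx⟩, hg.restrict _, ?_⟩
    rw [← a.nat V _ hV inf_le_left]
    exact hu.map _

/-- An isomorphism respects two rigidifications. -/
def Compat (a : RigOn f W M) (b : RigOn f W N) (φ : HomOn W M N) : Prop :=
  ∀ V h s, b.ev V h (φ.app V h s) = a.ev V h s

/-- An isomorphism changes rigidifications by a factor on the preimage. -/
theorem exists_factor (a : RigOn f W M) (b : RigOn f W N) (φ : HomOn W M N) :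
    ∃ c : Γ(T, f ⁻¹ᵁ W), ∀ V (h : V ≤ W) s,
      b.ev V h (φ.app V h s) = rres (f.preimage_mono h) c * a.ev V h s := by
  choose V hV g hxV hg hu using fun x : {x : T // f x ∈ W} => a.gen x.1 x.2
  let q : ∀ x, Γ(T, f ⁻¹ᵁ V x) := fun x =>
    b.ev (V x) (hV x) (φ.app _ (hV x) (g x)) * (hu x).unit⁻¹.val
  have key : ∀ x V' (h : V' ≤ V x) (s : Γ(M, V')),
      b.ev V' (h.trans (hV x)) (φ.app V' (h.trans (hV x)) s) =
        rres (f.preimage_mono h) (q x) * a.ev V' (h.trans (hV x)) s := by
    intro x V' h s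
    obtain ⟨r, rfl⟩ := (hg x).exists_smul h s
    rw [φ.smul, b.smul, a.smul, ← φ.nat _ _ (hV x) h, ← b.nat _ _ (hV x) h,
      ← a.nat _ _ (hV x) h, map_mul]
    have e1 : rres (f.preimage_mono h) (hu x).unit⁻¹.val *
        rres (f.preimage_mono h) (a.ev (V x) (hV x) (g x)) = 1 := by
      rw [← map_mul, (hu x).val_inv_mul, map_one]
    linear_combination (-(f.app V' r *
      rres (f.preimage_mono h) (b.ev (V x) (hV x) (φ.app _ (hV x) (g x))))) * e1
  have hc : f ⁻¹ᵁ W ≤ iSup fun x => f ⁻¹ᵁ V x := fun x hx =>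
    Opens.mem_iSup.2 ⟨⟨x, hx⟩, hxV ⟨x, hx⟩⟩
  obtain ⟨c, hc'⟩ := rres_glue (fun x => f ⁻¹ᵁ V x) (fun x => f.preimage_mono (hV x)) hc q
    fun x y => by
    have hx := key x (V x ⊓ V y) inf_le_left (mres M inf_le_left (g x))
    have hy := key y (V x ⊓ V y) inf_le_right (mres M inf_le_left (g x))
    have hu' : IsUnit (a.ev (V x ⊓ V y) (inf_le_left.trans (hV x)) (mres M inf_le_left (g x))) := by
      rw [← a.nat _ _ (hV x) inf_le_left]
      exact (hu x).map _
    exact hu'.mul_right_cancel (hx.symm.trans hy)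
  refine ⟨c, fun V' h s => ?_⟩
  refine rres_ext (fun x => f ⁻¹ᵁ (V' ⊓ V x)) (fun x => f.preimage_mono inf_le_left) ?_ _ _
    fun x => ?_
  · intro y hy
    exact Opens.mem_iSup.2 ⟨⟨y, h hy⟩, hy, hxV ⟨y, h hy⟩⟩
  · rw [b.nat, φ.nat, map_mul, a.nat _ _ h inf_le_left, key x _ inf_le_right, ← hc' x, rres_rres,
      rres_rres]

theorem eq_one_of_factor (a : RigOn f W M) (c : Γ(T, f ⁻¹ᵁ W))
    (h : ∀ V (h : V ≤ W) s, rres (f.preimage_mono h) c * a.ev V h s = a.ev V h s) : c = 1 := by
  choose V hV g hxV hg hu using fun x : {x : T // f x ∈ W} => a.gen x.1 x.2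
  refine rres_ext (fun x => f ⁻¹ᵁ V x) (fun x => f.preimage_mono (hV x))
    (fun x hx => Opens.mem_iSup.2 ⟨⟨x, hx⟩, hxV ⟨x, hx⟩⟩) _ _ fun x => ?_
  rw [map_one]
  exact (hu x).mul_eq_right.1 (h _ (hV x) (g x))

/-- **Existence**: if functions on `W` are those on its preimage, isomorphic modules with
rigidifications have an isomorphism respecting them. -/
theorem exists_compat (hf : Function.Surjective (f.app W)) (hf' : Function.Injective (f.app W))
    (a : RigOn f W M) (b : RigOn f W N) (φ : IsoOn W M N) :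
    ∃ ψ : IsoOn W M N, Compat a b ψ.hom := by
  obtain ⟨c, hc⟩ := exists_factor a b φ.hom
  obtain ⟨d, hd⟩ := exists_factor b a φ.inv
  have hcd : c * d = 1 := eq_one_of_factor a (c * d) fun V h s => by
    rw [map_mul, mul_comm (rres _ c), mul_assoc, ← hc, ← hd, φ.hom_inv]
  obtain ⟨r, rfl⟩ := hf c
  obtain ⟨r', rfl⟩ := hf d
  have hrr : r * r' = 1 := hf' (by rw [map_mul, map_one, hcd])
  refine ⟨⟨φ.hom.scale r', φ.inv.scale r, fun V h s => ?_, fun V h s => ?_⟩, fun V h s => ?_⟩
  · show rres h r • φ.inv.app V h (rres h r' • φ.hom.app V h s) = s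
    rw [φ.inv.smul, φ.hom_inv, smul_smul, ← map_mul, hrr, map_one, one_smul]
  · show rres h r' • φ.hom.app V h (rres h r • φ.inv.app V h s) = s
    rw [φ.hom.smul, φ.inv_hom, smul_smul, ← map_mul, mul_comm, hrr, map_one, one_smul]
  · show b.ev V h (rres h r' • φ.hom.app V h s) = a.ev V h s
    rw [b.smul, hc, ← rres_app, ← mul_assoc, ← map_mul, mul_comm (f.app W r'), hcd, map_one,
      one_mul]

/-- **Uniqueness**: if functions on `W` inject into those on its preimage, two isomorphisms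
respecting rigidifications are equal. -/
theorem eq_of_compat (hf : Function.Injective (f.app W)) (hM : LocFreeOn M W)
    (a : RigOn f W M) (b : RigOn f W N) (φ ψ : IsoOn W M N) (hφ : Compat a b φ.hom)
    (hψ : Compat a b ψ.hom) : φ.hom = ψ.hom := by
  let e : HomOn W M M := φ.hom.comp ψ.inv
  have he : ∀ V h s, a.ev V h (e.app V h s) = a.ev V h s := fun V h s => by
    show a.ev V h (ψ.inv.app V h (φ.hom.app V h s)) = _
    rw [← hψ, ψ.inv_hom, hφ]
  choose U g hUW hxU hg using fun x : {x : X // x ∈ W} => hM x.1 x.2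
  choose q hq using fun x => (hg x).exists_smul le_rfl (e.app (U x) (hUW x) (g x))
  simp only [mres_self] at hq
  have hloc : ∀ x V (h : V ≤ U x) (s : Γ(M, V)),
      e.app V (h.trans (hUW x)) s = rres h (q x) • s := by
    intro x V h s
    obtain ⟨r, rfl⟩ := (hg x).exists_smul h s
    rw [e.smul, ← e.nat _ _ (hUW x) h, ← hq, mres_smul, smul_comm]
  obtain ⟨r, hr⟩ := rres_glue U hUW (fun y hy => Opens.mem_iSup.2 ⟨⟨y, hy⟩, hxU ⟨y, hy⟩⟩) q
    fun x y => (hg x).smul_inj inf_le_left
      ((hloc x _ inf_le_left _).symm.trans (hloc y _ inf_le_right _))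
  have hglob : ∀ V (h : V ≤ W) s, e.app V h s = rres h r • s := fun V h s => by
    refine mres_ext (fun x => V ⊓ U x) (fun x => inf_le_left) (fun y hy =>
      Opens.mem_iSup.2 ⟨⟨y, h hy⟩, hy, hxU ⟨y, h hy⟩⟩) _ _ fun x => ?_
    rw [e.nat, hloc x _ inf_le_right, mres_smul, ← hr x, rres_rres, rres_rres]
  have h1 : r = 1 := hf (by
    rw [map_one]
    refine eq_one_of_factor a _ fun V h s => ?_
    rw [rres_app f h, ← a.smul, ← hglob V h s, he])
  refine HomOn.ext' fun V h s => ?_
  have := hglob V h s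
  rw [h1, map_one, one_smul] at this
  have h2 := congrArg (ψ.hom.app V h) this
  rwa [show e.app V h s = ψ.inv.app V h (φ.hom.app V h s) from rfl, ψ.inv_hom] at h2

/-- Transport along an isomorphism. -/
def transport (a : RigOn f W M) (φ : IsoOn W M N) : RigOn f W N where
  ev V h := (a.ev V h).comp (φ.inv.app V h)
  smul V h r s := by simp [φ.inv.smul, a.smul]
  nat V V' h h' s := by simp [φ.inv.nat V V' h h', a.nat V V' h h']
  gen x hx := by
    obtain ⟨V, hV, g, hxV, hg, hu⟩ := a.gen x hx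
    exact ⟨V, hV, φ.hom.app V hV g, hxV, hg.map (φ.restrict hV), by simpa [φ.hom_inv] using hu⟩

end RigOn

section Iso

variable {f : T ⟶ X}

/-- An isomorphism of the pullback with the structure sheaf gives a rigidification. -/
theorem nonempty_rigOn {p : X ⟶ T} (hp : f ≫ p = 𝟙 T) (hM : Scheme.Modules.IsInvertible M)
    (e : (Scheme.Modules.pullback f).obj M ≅ SheafOfModules.unit T.ringCatSheaf) :
    Nonempty (RigOn f ⊤ M) := by
  let η := (Scheme.Modules.pullbackPushforwardAdjunction f).homEquiv _ _ e.hom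
  let ev : ∀ V : X.Opens, Γ(M, V) →+ Γ(T, f ⁻¹ᵁ V) := fun V => (η.app V).hom
  have hsmul : ∀ (V : X.Opens) (r : Γ(X, V)) (s : Γ(M, V)), ev V (r • s) = f.app V r * ev V s :=
    fun V r s => Scheme.Modules.Hom.app_smul η r s
  have hnat : ∀ (V V' : X.Opens) (h' : V' ≤ V) (s : Γ(M, V)),
      rres (f.preimage_mono h') (ev V s) = ev V' (mres M h' s) := fun V V' h' s =>
    (ConcreteCategory.congr_hom (η.mapPresheaf.naturality (homOfLE h').op) s).symm
  refine ⟨⟨fun V _ => ev V, fun V _ => hsmul V, fun V V' _ => hnat V V', fun x _ => ?_⟩⟩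
  obtain ⟨V, g, hxV, hg⟩ := exists_isBasisOn hM (f x)
  suffices hD : x ∈ T.basicOpen (ev V g) by
    refine ⟨V ⊓ p ⁻¹ᵁ T.basicOpen (ev V g), le_top, mres M inf_le_left g, ⟨hxV, ?_⟩,
      hg.restrict _, ?_⟩
    · show p (f x) ∈ T.basicOpen (ev V g)
      rw [← Scheme.Hom.comp_apply, hp]
      exact hD
    · have hle : f ⁻¹ᵁ (V ⊓ p ⁻¹ᵁ T.basicOpen (ev V g)) ≤ T.basicOpen (ev V g) := fun y hy => by
        have h2 : p (f y) ∈ T.basicOpen (ev V g) := hy.2
        rwa [← Scheme.Hom.comp_apply, hp] at h2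
      have hu : IsUnit (rres (T.basicOpen_le (ev V g)) (ev V g)) :=
        T.toRingedSpace.isUnit_res_basicOpen _
      have hu2 := hu.map (rres hle)
      rwa [rres_rres, hnat V _ inf_le_left] at hu2
  by_contra hx
  -- otherwise all values vanish at `x`
  have hzero : ∀ (V' : X.Opens) (s : Γ(M, V')), x ∉ T.basicOpen (ev V' s) := by
    intro V' s hs
    have hxV' : f x ∈ V' := T.basicOpen_le _ hs
    obtain ⟨r, hr⟩ := hg.exists_smul (inf_le_left : V ⊓ V' ≤ V) (mres M inf_le_right s)
    have h2 : x ∈ T.basicOpen (ev (V ⊓ V') (mres M inf_le_right s)) := by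
      rw [← hnat, Scheme.basicOpen_res]
      exact ⟨⟨hxV, hxV'⟩, hs⟩
    rw [← hr, hsmul, ← hnat, Scheme.basicOpen_mul, Scheme.basicOpen_res] at h2
    exact hx h2.2.2
  let y := T.fromSpecResidueField x
  let m : unitMod T ⟶ (Scheme.Modules.pushforward y).obj (unitMod _) :=
    SheafOfModules.unitToPushforwardObjUnit y.toRingCatSheafHom
  have hm : ∀ (D : T.Opens) (a : Γ(T, D)), x ∉ T.basicOpen a → y.app D a = 0 := fun D a ha => by
    rw [← basicOpen_eq_bot_iff, ← Scheme.preimage_basicOpen]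
    refine eq_bot_iff.2 fun z hz => ha ?_
    have h' : y z ∈ T.basicOpen a := hz
    rwa [Scheme.fromSpecResidueField_apply] at h'
  let e' : (Scheme.Modules.pullback f).obj M ≅ unitMod T := e
  have h0 : e'.hom ≫ m = 0 := by
    refine ((Scheme.Modules.pullbackPushforwardAdjunction f).homEquiv _ _).injective ?_
    rw [Adjunction.homEquiv_naturality_right, Adjunction.homEquiv_unit (f := 0),
      Functor.map_zero, Limits.comp_zero]
    refine Scheme.Modules.hom_ext _ _ fun V' => ?_
    ext s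
    exact hm _ _ (hzero V' s)
  have h1 : m = 0 := by rw [← cancel_epi e'.hom, h0, Limits.comp_zero]
  have h2 := ConcreteCategory.congr_hom (congrArg (fun φ => Scheme.Modules.Hom.app φ ⊤) h1)
    (1 : Γ(T, ⊤))
  have h3 : y.app ⊤ 1 = 0 := h2
  rw [map_one, ← basicOpen_eq_bot_iff, Scheme.basicOpen_one] at h3
  have h4 : (IsLocalRing.closedPoint (T.residueField x) : Spec (T.residueField x)) ∈
      y ⁻¹ᵁ (⊤ : T.Opens) := trivial
  rw [h3] at h4
  exact h4

/-- A rigidification gives an isomorphism of the pullback with the structure sheaf. -/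
theorem nonempty_iso_of_rigOn (a : RigOn f ⊤ M) :
    Nonempty ((Scheme.Modules.pullback f).obj M ≅ SheafOfModules.unit T.ringCatSheaf) := by
  classical
  let adj := Scheme.Modules.pullbackPushforwardAdjunction f
  let P := (Scheme.Modules.pullback f).obj M
  let η : ∀ V : X.Opens, Γ(M, V) →+ Γ(P, f ⁻¹ᵁ V) := fun V => ((adj.unit.app M).app V).hom
  have ηsmul : ∀ (V : X.Opens) (r : Γ(X, V)) (s : Γ(M, V)), η V (r • s) = f.app V r • η V s :=
    fun V r s => Scheme.Modules.Hom.app_smul (adj.unit.app M) r s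
  have ηnat : ∀ (V V' : X.Opens) (h' : V' ≤ V) (s : Γ(M, V)),
      mres P (f.preimage_mono h') (η V s) = η V' (mres M h' s) := fun V V' h' s =>
    (ConcreteCategory.congr_hom ((adj.unit.app M).mapPresheaf.naturality (homOfLE h').op) s).symm
  let evHom : M ⟶ (Scheme.Modules.pushforward f).obj (SheafOfModules.unit T.ringCatSheaf) :=
    HomOn.toHom
      { app := fun V h => a.ev V h
        smul := fun V h r s => a.smul V h r s
        nat := fun V V' h h' s => a.nat V V' h h' s }
  let e : P ⟶ unitMod T := (adj.homEquiv _ _).symm evHom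
  let eD : ∀ D : T.Opens, Γ(P, D) →+ Γ(T, D) := fun D => unitFn.comp (e.app D).hom
  have esmul : ∀ (D : T.Opens) (r : Γ(T, D)) (s : Γ(P, D)), eD D (r • s) = r * eD D s :=
    fun D r s => Scheme.Modules.Hom.app_smul e r s
  have enat : ∀ (D D' : T.Opens) (h : D' ≤ D) (s : Γ(P, D)),
      rres h (eD D s) = eD D' (mres P h s) := fun D D' h s =>
    (ConcreteCategory.congr_hom (e.mapPresheaf.naturality (homOfLE h).op) s).symm
  have he : ∀ (V : X.Opens) (s : Γ(M, V)), eD (f ⁻¹ᵁ V) (η V s) = a.ev V le_top s := by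
    intro V s
    have h : adj.homEquiv _ _ e = evHom := (adj.homEquiv _ _).apply_symm_apply _
    rw [Adjunction.homEquiv_unit] at h
    exact ConcreteCategory.congr_hom (congrArg (fun φ => Scheme.Modules.Hom.app φ V) h) s
  choose V hV g hxV hg hu using fun x : T => a.gen x trivial
  let σ : ∀ x, Γ(P, f ⁻¹ᵁ V x) := fun x => (hu x).unit⁻¹.val • η (V x) (g x)
  have key : ∀ x V' (h : V' ≤ V x) (s : Γ(M, V')),
      a.ev V' le_top s • mres P (f.preimage_mono h) (σ x) = η V' s := by
    intro x V' h s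
    obtain ⟨r, rfl⟩ := (hg x).exists_smul h s
    rw [a.smul, ηsmul, ← a.nat _ _ (hV x) h, ← ηnat _ _ h, mres_smul, smul_smul, mul_assoc,
      ← map_mul, (hu x).mul_val_inv, map_one, mul_one]
  obtain ⟨s₀, hs₀⟩ := mres_glue (fun x => f ⁻¹ᵁ V x) (fun x => le_top)
    (fun x _ => Opens.mem_iSup.2 ⟨x, hxV x⟩) σ fun x y => by
    have hx := key x (V x ⊓ V y) inf_le_left (mres M inf_le_left (g x))
    have hy := key y (V x ⊓ V y) inf_le_right (mres M inf_le_left (g x))
    have hu' : IsUnit (a.ev (V x ⊓ V y) le_top (mres M inf_le_left (g x))) := by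
      rw [← a.nat _ _ (hV x) inf_le_left]
      exact (hu x).map _
    show mres P (f.preimage_mono (inf_le_left : V x ⊓ V y ≤ V x)) (σ x) =
      mres P (f.preimage_mono inf_le_right) (σ y)
    exact hu'.smul_left_cancel.1 (hx.trans hy.symm)
  let m : unitMod T ⟶ P :=
    HomOn.toHom
      { app := fun D _ =>
          (AddMonoidHom.mk' (fun r : Γ(T, D) => r • mres P (le_top : D ≤ ⊤) s₀)
            fun r r' => add_smul r r' _).comp unitFn
        smul := fun D _ r r' => mul_smul r (unitFn r') _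
        nat := fun D D' _ h r => (mres_smul h _ _).trans (congrArg _ (mres_mres _ _ _)) }
  have hes : eD ⊤ s₀ = 1 := by
    refine rres_ext (fun x => f ⁻¹ᵁ V x) (fun x => le_top)
      (fun x _ => Opens.mem_iSup.2 ⟨x, hxV x⟩) _ _ fun x => ?_
    rw [enat, hs₀ x, map_one, esmul, he]
    exact (hu x).val_inv_mul
  refine ⟨(⟨e, m, (adj.homEquiv _ _).injective ?_, ?_⟩ : P ≅ unitMod T)⟩
  · rw [Adjunction.homEquiv_unit, Adjunction.homEquiv_unit]
    refine Scheme.Modules.hom_ext _ _ fun V' => ?_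
    ext s
    show eD (f ⁻¹ᵁ V') (η V' s) • mres P le_top s₀ = η V' s
    rw [he]
    refine mres_ext (fun x => f ⁻¹ᵁ (V' ⊓ V x)) (fun x => f.preimage_mono inf_le_left)
      (fun x hx => Opens.mem_iSup.2 ⟨x, hx, hxV x⟩) _ _ fun x => ?_
    rw [mres_smul, mres_mres, a.nat _ _ _ inf_le_left, ηnat _ _ inf_le_left,
      ← key x _ inf_le_right, ← hs₀ x, mres_mres]
  · refine Scheme.Modules.hom_ext _ _ fun D => ?_
    ext r
    show eD D (unitFn r • mres P le_top s₀) = unitFn r
    rw [esmul, ← enat ⊤ D le_top, hes, map_one, mul_one]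

end Iso

end FermatAgent.Pic.Glue
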