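import Fermat.Agent.Pic.Glue.HomOn
import Fermat.Agent.Pic.Rep.Sheaf

/-!
# The classes over a scheme form a small type

A class is determined by a cover with generators and the transition functions.
-/

set_option autoImplicit false

noncomputable section

universe u

open CategoryTheory CategoryTheory.Limits AlgebraicGeometry NeronModelInfra
  AlgebraicGeometry.RelPicard Opposite TopologicalSpace

namespace FermatAgent.Pic.Glue

section General

variable {X : Scheme.{u}} {M M' : X.Modules}

/-- Modules with generators having the same transition functions are isomorphic. -/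
theorem nonempty_iso_of_transition {ι : Type u} (U : ι → X.Opens) (hU : ⊤ ≤ iSup U)
    (g : ∀ i, Γ(M, U i)) (g' : ∀ i, Γ(M', U i)) (hg : ∀ i, IsBasisOn M (g i))
    (hg' : ∀ i, IsBasisOn M' (g' i)) (q : ∀ i j, Γ(X, U i ⊓ U j))
    (hq : ∀ i j, q i j • mres M inf_le_right (g j) = mres M inf_le_left (g i))
    (hq' : ∀ i j, q i j • mres M' inf_le_right (g' j) = mres M' inf_le_left (g' i)) :
    Nonempty (M ≅ M') := by
  choose φ hφ using fun i => (hg i).exists_isoOn (hg' i)
  obtain ⟨e, -⟩ := IsoOn.exists_iso_of_glue U hU φ fun i j V hi hj s => by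
    obtain ⟨r, rfl⟩ := (hg i).exists_smul hi s
    have e : mres M hi (g i) = rres (le_inf hi hj) (q i j) • mres M hj (g j) := by
      have h := congrArg (mres M (le_inf hi hj)) (hq i j)
      rw [mres_smul, mres_mres, mres_mres] at h
      exact h.symm
    have e' : mres M' hi (g' i) = rres (le_inf hi hj) (q i j) • mres M' hj (g' j) := by
      have h := congrArg (mres M' (le_inf hi hj)) (hq' i j)
      rw [mres_smul, mres_mres, mres_mres] at h
      exact h.symm
    rw [hφ i, e', e, smul_smul, smul_smul, hφ j]
  exact ⟨e⟩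

end General

variable {R : Type u} [CommRing R] {C : Scheme.{u}} {c : C ⟶ Spec (CommRingCat.of R)}
  {ε : SchemeHomOver (𝟙 (Spec (CommRingCat.of R))) c}

/-- A structure map with a cover of the curve and transition functions. -/
structure TransData (c : C ⟶ Spec (CommRingCat.of R)) (T : Scheme.{u}) : Type u where
  /-- the structure map -/
  t : T ⟶ Spec (CommRingCat.of R)
  /-- the cover, indexed by points -/
  U : ↥(Limits.pullback c t) → (Limits.pullback c t).Opens
  /-- the transition functions -/
  q : ∀ z w, Γ(Limits.pullback c t, U z ⊓ U w)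

/-- A family is described by the transition data. -/
def HasTransData {Q : SubPicCondition c ε} {T : Scheme.{u}} (a : FamilyOn Q T)
    (d : TransData c T) : Prop :=
  ∃ (M : RigidifiedLineBundle c ε d.t) (hM : Q.P d.t M) (g : ∀ z, Γ(M.L, d.U z)),
    a ≈ ⟨d.t, M, hM⟩ ∧ (∀ z, z ∈ d.U z) ∧ (∀ z, IsBasisOn M.L (g z)) ∧
      ∀ z w, d.q z w • mres M.L inf_le_right (g w) = mres M.L inf_le_left (g z)

theorem exists_hasTransData {Q : SubPicCondition c ε} {T : Scheme.{u}} (a : FamilyOn Q T) :
    ∃ d, HasTransData a d := by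
  choose U g hz hg using fun z => exists_isBasisOn a.M.isInvertible z
  choose q hq using fun z w => (hg w).exists_smul (inf_le_right : U z ⊓ U w ≤ U w)
    (mres a.M.L inf_le_left (g z))
  exact ⟨⟨a.t, U, q⟩, a.M, a.mem, g, Setoid.refl _, hz, hg, hq⟩

/-- **Classes over a scheme form a small type.** -/
theorem small_familyClass (Q : SubPicCondition c ε) (T : Scheme.{u}) :
    Small.{u} (FamilyClass Q T) := by
  choose d hd using fun x : FamilyClass Q T => exists_hasTransData x.out
  refine small_of_injective (f := d) fun x y hxy => ?_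
  obtain ⟨M, hM, g, hxM, hz, hg, hq⟩ := hd x
  obtain ⟨M', hM', g', hyM, hz', hg', hq'⟩ := hxy ▸ hd y
  have e : (⟨(d x).t, M, hM⟩ : FamilyOn Q T) ≈ ⟨(d x).t, M', hM'⟩ :=
    FamilyOn.rel_of_sameClass ((nonempty_iso_of_transition (d x).U
      (fun z _ => Opens.mem_iSup.2 ⟨z, hz z⟩) g g' hg hg' (d x).q hq hq').map Iso.symm)
  rw [← Quotient.out_eq x, ← Quotient.out_eq y]
  exact Quotient.sound (Setoid.trans (Setoid.trans hxM e) (Setoid.symm hyM))

end FermatAgent.Pic.Glue
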